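/-
P-ES / KL-DESC (helper93): number-field descent for the KEY LEMMA — interfaces.

`F₀` is an intermediate field `ℚ ⊂ F₀ ⊂ ℚ((q))` (in the application `modularFunctionFieldFull N`),
`K₁` a field with an embedding `ι : K₁ → ℚ̄` (in the application a number field `↥K₀`), and
`F_{K₁} := laurentBaseChange K₁ F₀ ⊂ K₁((q))`.  Coefficientwise base change along `ι` is a
field embedding `klBc ι F₀ : F_{K₁} → F_{ℚ̄}`.

* `CoeffDescentStatement` : every element of `F_{ℚ̄}` comes from `F_{K₁}` for all `K₁` containing a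
  suitable number field.
* `ConstExtUnramifiedSimpleStatement`, `ConstExtUnramifiedStatement` : (Mathlib only) a constant
  field extension is unramified at every discrete valuation ring containing the constants
  (characteristic zero).
* `PlaceDescentStatement` : every place of `F_{K₁} / K₁` is the restriction of a place of
  `F_{ℚ̄} / ℚ̄` with ramification index one.
* `KLDescentStatement N` : the descent package consumed by KL-ASM.
-/
import Mathlib
import Fermat.Prelude.Def_ModularCurve_ArithmeticGalois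

set_option autoImplicit false

noncomputable section

namespace Fermat.Agent.H93.KL

open ModularCurve AlgebraicCurve

/-- `ℚ̄` in the prelude's model. -/
abbrev QBar : Type := AlgebraicClosure ℚ

section

variable {K₁ : Type} [Field K₁] [Algebra ℚ K₁]

/-- Coefficientwise base change preserves the function fields. -/
theorem coeffMap_mem_laurentBaseChange_bar (ι : K₁ →+* QBar)
    (F₀ : IntermediateField ℚ (LaurentSeries ℚ)) {f : LaurentSeries K₁}
    (hf : f ∈ laurentBaseChange K₁ F₀) :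
    coeffMap ι f ∈ laurentBaseChange QBar F₀ := by
  rw [mem_laurentBaseChange_iff] at hf
  induction hf using Subfield.closure_induction with
  | mem y hy =>
      rcases hy with ⟨a, rfl⟩ | ⟨z, hz, rfl⟩
      · rw [algebraMap_laurentSeries_eq_single, coeffMap_single,
          ← algebraMap_laurentSeries_eq_single]
        exact (laurentBaseChange QBar F₀).algebraMap_mem _
      · have h : coeffMap ι (coeffEmb K₁ z) = coeffEmb QBar z := by
          rw [coeffEmb, coeffMap_coeffMap]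
          exact coeffMap_congr (RingHom.ext fun c => by simp) z
        rw [h]
        exact coeffEmb_mem_laurentBaseChange QBar hz
  | one => simp
  | add x y _ _ hx hy => simpa using add_mem hx hy
  | neg x _ hx => simpa using neg_mem hx
  | inv x _ hx => simpa using inv_mem hx
  | mul x y _ _ hx hy => simpa using mul_mem hx hy

/-- Coefficientwise base change `F_{K₁} → F_{ℚ̄}` along `ι : K₁ → ℚ̄`. -/
def klBc (ι : K₁ →+* QBar) (F₀ : IntermediateField ℚ (LaurentSeries ℚ)) :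
    ↥(laurentBaseChange K₁ F₀) →+* ↥(laurentBaseChange QBar F₀) where
  toFun f := ⟨coeffMap ι (f : LaurentSeries K₁), coeffMap_mem_laurentBaseChange_bar ι F₀ f.2⟩
  map_one' := Subtype.ext (map_one (coeffMap ι))
  map_mul' _ _ := Subtype.ext (map_mul (coeffMap ι) _ _)
  map_zero' := Subtype.ext (map_zero (coeffMap ι))
  map_add' _ _ := Subtype.ext (map_add (coeffMap ι) _ _)

@[simp]
theorem klBc_coe (ι : K₁ →+* QBar) (F₀ : IntermediateField ℚ (LaurentSeries ℚ))
    (f : ↥(laurentBaseChange K₁ F₀)) :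
    ((klBc ι F₀ f : ↥(laurentBaseChange QBar F₀)) : LaurentSeries QBar) =
      coeffMap ι (f : LaurentSeries K₁) := rfl

end

/-- **KL-DESC-a** (coefficient descent).  Every element of `F_{ℚ̄}` has its coefficients in a
number field `K₀ ⊂ ℚ̄`, and comes from `F_{K₁}` for every field `ι : K₁ → ℚ̄` whose image
contains `K₀`. -/
def CoeffDescentStatement : Prop :=
  ∀ (F₀ : IntermediateField ℚ (LaurentSeries ℚ)) (f : LaurentSeries QBar),
    f ∈ laurentBaseChange QBar F₀ →
    ∃ K₀ : IntermediateField ℚ QBar, FiniteDimensional ℚ ↥K₀ ∧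
      ∀ (K₁ : Type) [Field K₁] [Algebra ℚ K₁] (ι : K₁ →+* QBar),
        (∀ c ∈ K₀, c ∈ ι.range) →
        ∃ f₁ : LaurentSeries K₁, f₁ ∈ laurentBaseChange K₁ F₀ ∧ coeffMap ι f₁ = f

/-- **KL-DESC-b1** (Mathlib only; the core).  Characteristic zero; `O` a discrete valuation ring
of `F₁` containing the field of constants `K₁`, with uniformiser `t`; `E = F₁(θ)` with `θ`
algebraic over `K₁`; `W` a valuation ring of `E` with `W ∩ F₁ = O`.  Then `t` is a uniformiser of
`W`: every nonzero element of `E` is a unit of `W` times a power of `t`. -/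
def ConstExtUnramifiedSimpleStatement : Prop :=
  ∀ (K₁ F₁ E : Type) [Field K₁] [Field F₁] [Field E] [CharZero K₁]
    [Algebra K₁ F₁] [Algebra F₁ E] [Algebra K₁ E] [IsScalarTower K₁ F₁ E]
    (θ : E), IsIntegral K₁ θ → IntermediateField.adjoin F₁ ({θ} : Set E) = ⊤ →
    ∀ (O : ValuationSubring F₁) (W : ValuationSubring E),
      (∀ a : K₁, algebraMap K₁ F₁ a ∈ O) →
      (∀ x : F₁, algebraMap F₁ E x ∈ W ↔ x ∈ O) →
      ∀ t : F₁, t ∈ O → t⁻¹ ∉ O →
        (∀ x : F₁, x ≠ 0 → ∃ n : ℤ, x * t ^ n ∈ O ∧ (x * t ^ n)⁻¹ ∈ O) →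
        ∀ y : E, y ≠ 0 →
          ∃ n : ℤ, y * algebraMap F₁ E t ^ n ∈ W ∧ (y * algebraMap F₁ E t ^ n)⁻¹ ∈ W

/-- **KL-DESC-b** (Mathlib only).  The same for an arbitrary (possibly infinite) constant field
extension `E = F₁(S)`, `S` a set of elements algebraic over `K₁`. -/
def ConstExtUnramifiedStatement : Prop :=
  ∀ (K₁ F₁ E : Type) [Field K₁] [Field F₁] [Field E] [CharZero K₁]
    [Algebra K₁ F₁] [Algebra F₁ E] [Algebra K₁ E] [IsScalarTower K₁ F₁ E]
    (S : Set E), (∀ θ ∈ S, IsIntegral K₁ θ) → IntermediateField.adjoin F₁ S = ⊤ →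
    ∀ (O : ValuationSubring F₁) (W : ValuationSubring E),
      (∀ a : K₁, algebraMap K₁ F₁ a ∈ O) →
      (∀ x : F₁, algebraMap F₁ E x ∈ W ↔ x ∈ O) →
      ∀ t : F₁, t ∈ O → t⁻¹ ∉ O →
        (∀ x : F₁, x ≠ 0 → ∃ n : ℤ, x * t ^ n ∈ O ∧ (x * t ^ n)⁻¹ ∈ O) →
        ∀ y : E, y ≠ 0 →
          ∃ n : ℤ, y * algebraMap F₁ E t ^ n ∈ W ∧ (y * algebraMap F₁ E t ^ n)⁻¹ ∈ W

/-- **KL-DESC-c** (place descent).  Every place of `F_{K₁} / K₁` is the restriction of a place of
`F_{ℚ̄} / ℚ̄`, with ramification index one. -/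
def PlaceDescentStatement : Prop :=
  ∀ (F₀ : IntermediateField ℚ (LaurentSeries ℚ))
    (K₁ : Type) [Field K₁] [Algebra ℚ K₁] (ι : K₁ →+* QBar)
    (P₁ : Place K₁ ↥(laurentBaseChange K₁ F₀)),
    ∃ P : Place QBar ↥(laurentBaseChange QBar F₀),
      ∀ f : ↥(laurentBaseChange K₁ F₀), P.ord (klBc ι F₀ f) = P₁.ord f

/-- **KL-DESC** (the package for KL-ASM).  Given `a b ∈ F_{ℚ̄} = modularFunctionFieldBar N` such
that `r ∣ ord_P a - ord_P b` at every place `P` of `F_{ℚ̄}`: there is a number field `K₀ ⊂ ℚ̄`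
such that for EVERY field `ι : K₁ → ℚ̄` whose image contains `K₀` (e.g. `K₁ = ↥K` for an
intermediate field `K ⊇ K₀`, `ι = algebraMap ↥K ℚ̄`) the series `a`, `b` come from
`a₁ b₁ ∈ F_{K₁} = laurentBaseChange K₁ (modularFunctionFieldFull N)` and
`r ∣ ord_{P₁} a₁ - ord_{P₁} b₁` at every place `P₁` of `F_{K₁} / K₁`.
(If the coefficients of `a`, `b` lie in a subring `A ⊂ ℚ̄`, those of `a₁`, `b₁` lie in
`ι ⁻¹ A`, because `coeffMap ι a₁ = a` coefficientwise.) -/
def KLDescentStatement (N : ℕ) : Prop :=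
  ∀ (a b : LaurentSeries QBar)
    (ha : a ∈ modularFunctionFieldBar N) (hb : b ∈ modularFunctionFieldBar N) (r : ℕ),
    (∀ P : Place QBar ↥(modularFunctionFieldBar N),
      (r : ℤ) ∣ P.ord (⟨a, ha⟩ : ↥(modularFunctionFieldBar N))
        - P.ord (⟨b, hb⟩ : ↥(modularFunctionFieldBar N))) →
    ∃ K₀ : IntermediateField ℚ QBar, FiniteDimensional ℚ ↥K₀ ∧
      ∀ (K₁ : Type) [Field K₁] [Algebra ℚ K₁] (ι : K₁ →+* QBar),
        (∀ c ∈ K₀, c ∈ ι.range) →
        ∃ (a₁ b₁ : LaurentSeries K₁)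
          (ha₁ : a₁ ∈ laurentBaseChange K₁ (modularFunctionFieldFull N))
          (hb₁ : b₁ ∈ laurentBaseChange K₁ (modularFunctionFieldFull N)),
          coeffMap ι a₁ = a ∧ coeffMap ι b₁ = b ∧
          ∀ P₁ : Place K₁ ↥(laurentBaseChange K₁ (modularFunctionFieldFull N)),
            (r : ℤ) ∣ P₁.ord (⟨a₁, ha₁⟩ : ↥(laurentBaseChange K₁ (modularFunctionFieldFull N)))
              - P₁.ord (⟨b₁, hb₁⟩ : ↥(laurentBaseChange K₁ (modularFunctionFieldFull N)))

/-- Assembly: KL-DESC from the coefficient descent and the place descent. -/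
theorem klDescent_of (h₁ : CoeffDescentStatement) (h₂ : PlaceDescentStatement) (N : ℕ) :
    KLDescentStatement N := by
  intro a b ha hb r hr
  obtain ⟨Ka, hKa, hA⟩ := h₁ (modularFunctionFieldFull N) a ha
  obtain ⟨Kb, hKb, hB⟩ := h₁ (modularFunctionFieldFull N) b hb
  refine ⟨Ka ⊔ Kb, ?_, fun K₁ _ _ ι hK₁ => ?_⟩
  · have := hKa
    have := hKb
    exact IntermediateField.finiteDimensional_sup Ka Kb
  · obtain ⟨a₁, ha₁, rfl⟩ := hA K₁ ι (fun c hc => hK₁ c ((le_sup_left : Ka ≤ Ka ⊔ Kb) hc))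
    obtain ⟨b₁, hb₁, rfl⟩ := hB K₁ ι (fun c hc => hK₁ c ((le_sup_right : Kb ≤ Ka ⊔ Kb) hc))
    refine ⟨a₁, b₁, ha₁, hb₁, rfl, rfl, fun P₁ => ?_⟩
    obtain ⟨P, hP⟩ := h₂ (modularFunctionFieldFull N) K₁ ι P₁
    have h := hr P
    have e1 : (⟨coeffMap ι a₁, ha⟩ : ↥(modularFunctionFieldBar N)) =
        klBc ι (modularFunctionFieldFull N) ⟨a₁, ha₁⟩ := rfl
    have e2 : (⟨coeffMap ι b₁, hb⟩ : ↥(modularFunctionFieldBar N)) =
        klBc ι (modularFunctionFieldFull N) ⟨b₁, hb₁⟩ := rfl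
    rw [e1, e2, hP, hP] at h
    exact h

end Fermat.Agent.H93.KL
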