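/-
helper93 (P-ES / KL-ASM-BC, row 551), step B: `H22.KL.klAsm_core` instantiated at the discrete
valuation ring `A₀ = A ∩ K₁` of an abstract number field `ι : K₁ → ℚ̄`.
-/
import Fermat.Agent.H22.ES.KLAsmCore
import Fermat.Agent.H34.KLM.DVR
import Fermat.Agent.H60.KLModelCusp
import Fermat.Agent.H33.KLM.ModelRoot
import Fermat.Agent.H98.KL.LaurentConst
import Fermat.Agent.H93.KL.DescInterfaces

set_option autoImplicit false

noncomputable section

namespace Fermat.Agent.H93.KL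

open ModularCurve AlgebraicCurve Fermat.Agent.H22.KL

section Comap

variable {K₁ L : Type} [Field K₁] [Field L] (ι : K₁ →+* L) (A : ValuationSubring L)

/-- Units of a valuation subring: nonzero elements whose inverse lies in the subring. -/
theorem valuationSubring_isUnit_iff {F : Type} [Field F] (V : ValuationSubring F) (x : V) :
    IsUnit x ↔ (x : F) ≠ 0 ∧ (x : F)⁻¹ ∈ V := by
  constructor
  · intro hx
    obtain ⟨y, hy⟩ := isUnit_iff_exists_inv.mp hx
    have hy' : (x : F) * (y : F) = 1 := congrArg Subtype.val hy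
    have hx0 : (x : F) ≠ 0 := left_ne_zero_of_mul_eq_one hy'
    refine ⟨hx0, ?_⟩
    rw [inv_eq_of_mul_eq_one_right hy']
    exact y.2
  · rintro ⟨hx0, hinv⟩
    exact isUnit_iff_exists_inv.mpr ⟨⟨(x : F)⁻¹, hinv⟩, Subtype.ext (mul_inv_cancel₀ hx0)⟩

/-- An element of `A ∩ K₁` is a unit iff its image in `A` is. -/
theorem isUnit_comap_iff (c : K₁) (hc : c ∈ A.comap ι) :
    IsUnit (⟨c, hc⟩ : ↥(A.comap ι)) ↔ IsUnit (⟨ι c, hc⟩ : ↥A) := by
  rw [valuationSubring_isUnit_iff, valuationSubring_isUnit_iff]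
  show (c ≠ 0 ∧ c⁻¹ ∈ A.comap ι) ↔ (ι c ≠ 0 ∧ (ι c)⁻¹ ∈ A)
  rw [ValuationSubring.mem_comap, map_inv₀, Ne, Ne, map_eq_zero]

end Comap

section LeadingCoeff

variable {R S : Type} [CommRing R] [CommRing S]

theorem coeffMap_eq_zero_iff (f : R →+* S) (hf : Function.Injective f) (x : LaurentSeries R) :
    coeffMap f x = 0 ↔ x = 0 := by
  constructor
  · intro h
    ext k
    apply hf
    have := congrArg (fun z => HahnSeries.coeff z k) h
    simpa using this
  · rintro rfl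
    exact map_zero _

theorem order_coeffMap (f : R →+* S) (hf : Function.Injective f) (x : LaurentSeries R) :
    (coeffMap f x).order = x.order := by
  rcases eq_or_ne x 0 with rfl | hx
  · rw [map_zero, HahnSeries.order_zero, HahnSeries.order_zero]
  have hx' : coeffMap f x ≠ 0 := fun h => hx ((coeffMap_eq_zero_iff f hf x).mp h)
  apply le_antisymm
  · apply HahnSeries.order_le_of_coeff_ne_zero
    rw [coeffMap_coeff]
    intro h
    exact hx (HahnSeries.coeff_order_eq_zero.mp (hf (by rw [h, map_zero])))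
  · apply HahnSeries.order_le_of_coeff_ne_zero
    intro h
    apply hx'
    apply HahnSeries.coeff_order_eq_zero.mp
    rw [coeffMap_coeff, h, map_zero]

theorem leadingCoeff_coeffMap (f : R →+* S) (hf : Function.Injective f) (x : LaurentSeries R) :
    (coeffMap f x).leadingCoeff = f x.leadingCoeff := by
  rw [HahnSeries.leadingCoeff_eq, HahnSeries.leadingCoeff_eq, order_coeffMap f hf, coeffMap_coeff]

end LeadingCoeff

section StepB

variable (N ℓ : ℕ) (x₀ : LaurentSeries ℚ) (M : ℕ)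

/-- `K₁` is algebraically closed in `K₁((q))` (helper98). -/
theorem modelConst : ModelConstStatement := by
  intro K₁ _ z hz
  obtain ⟨c, hc⟩ := Fermat.Agent.H98.KL.exists_const_of_isAlgebraic z hz
  exact ⟨c, hc⟩

/-- **KL-ASM, step B**: the key lemma for prime exponents over an abstract number field
`ι : K₁ → ℚ̄`, for series `a₁ b₁` over `K₁` whose images in `ℚ̄((q))` have coefficients in `A`. -/
theorem klAsm_stepB [NeZero N] (hℓ : ℓ.Prime) (hx₀ : x₀ ∈ modularFunctionFieldFull N)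
    (hAbs : AbstractKeyLemmaStatement) (hTr : ModelTranscendentalStatement N x₀)
    (hGB : ModelGoodBasisStatement N ℓ x₀) (hBR : ModelBranchStatement N ℓ x₀ M)
    (hQ : ModelQExpStatement N ℓ x₀)
    (K₁ : Type) [Field K₁] [Algebra ℚ K₁] [FiniteDimensional ℚ K₁] (ι : K₁ →+* QBar)
    (A : ValuationSubring QBar) (hA : A.LiesOverPrime ℓ)
    (hζM : ∃ ζ : K₁, IsPrimitiveRoot ζ M)
    (r : ℕ) (hr : r.Prime) (hℓr : ¬ ℓ ∣ r) (hζr : ∃ ζ : K₁, IsPrimitiveRoot ζ r)
    (a b : LaurentSeries A)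
    (hred : coeffMap (IsLocalRing.residue A) a = coeffMap (IsLocalRing.residue A) b)
    (hne : coeffMap (IsLocalRing.residue A) a ≠ 0)
    (a₁ b₁ : LaurentSeries K₁)
    (ha₁ : a₁ ∈ laurentBaseChange K₁ (modularFunctionFieldFull N))
    (hb₁ : b₁ ∈ laurentBaseChange K₁ (modularFunctionFieldFull N))
    (haa : coeffMap ι a₁ = coeffMap A.subtype a) (hbb : coeffMap ι b₁ = coeffMap A.subtype b)
    (hord : ∀ P₁ : Place K₁ ↥(laurentBaseChange K₁ (modularFunctionFieldFull N)),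
      (r : ℤ) ∣ P₁.ord (⟨a₁, ha₁⟩ : ↥(laurentBaseChange K₁ (modularFunctionFieldFull N)))
        - P₁.ord (⟨b₁, hb₁⟩ : ↥(laurentBaseChange K₁ (modularFunctionFieldFull N))))
    (hγ : ∃ γ : K₁, γ ^ r * b₁.leadingCoeff = a₁.leadingCoeff) :
    ∃ w : ↥(laurentBaseChange K₁ (modularFunctionFieldFull N)),
      w ^ r * (⟨b₁, hb₁⟩ : ↥(laurentBaseChange K₁ (modularFunctionFieldFull N)))
        = (⟨a₁, ha₁⟩ : ↥(laurentBaseChange K₁ (modularFunctionFieldFull N))) := by
  classical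
  haveI hdvr : IsDiscreteValuationRing ↥(A.comap ι) :=
    Fermat.Agent.H34.modelDVR K₁ ι A ℓ hℓ hA
  letI algE : Algebra ↥(A.comap ι) (ModelField K₁ N) :=
    ((algebraMap K₁ (ModelField K₁ N)).comp (algebraMap ↥(A.comap ι) K₁)).toAlgebra
  haveI : IsScalarTower ↥(A.comap ι) K₁ (ModelField K₁ N) :=
    IsScalarTower.of_algebraMap_eq (fun _ => rfl)
  -- coefficients
  have hcoefa : ∀ n : ℤ, ι (a₁.coeff n) = ((a.coeff n : A) : QBar) := by
    intro n
    have := congrArg (fun z => HahnSeries.coeff z n) haa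
    simpa using this
  have hcoefb : ∀ n : ℤ, ι (b₁.coeff n) = ((b.coeff n : A) : QBar) := by
    intro n
    have := congrArg (fun z => HahnSeries.coeff z n) hbb
    simpa using this
  have hmema : ∀ n : ℤ, a₁.coeff n ∈ A.comap ι := by
    intro n
    rw [ValuationSubring.mem_comap, hcoefa]
    exact (a.coeff n).2
  have hmemb : ∀ n : ℤ, b₁.coeff n ∈ A.comap ι := by
    intro n
    rw [ValuationSubring.mem_comap, hcoefb]
    exact (b.coeff n).2
  -- `ℓ` is not a unit
  have hℓ' : ¬ IsUnit ((ℓ : ℕ) : ↥(A.comap ι)) := by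
    have h1 : ((ℓ : ℕ) : ↥(A.comap ι)) = ⟨(ℓ : K₁), by
        rw [ValuationSubring.mem_comap, map_natCast]; exact natCast_mem A ℓ⟩ :=
      Subtype.ext (by simp)
    rw [h1, isUnit_comap_iff, valuationSubring_isUnit_iff]
    rintro ⟨h0, hinv⟩
    have h2 : ((ℓ : ℕ) : QBar) ∈ A.nonunits := hA
    rw [ValuationSubring.mem_nonunits_iff_exists_mem_maximalIdeal] at h2
    obtain ⟨hmem, hmax⟩ := h2
    rw [IsLocalRing.mem_maximalIdeal, mem_nonunits_iff] at hmax
    apply hmax
    rw [valuationSubring_isUnit_iff]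
    refine ⟨?_, ?_⟩
    · simpa using h0
    · simpa using hinv
  -- `r` is a unit
  have hrA : IsUnit ((r : ℕ) : ↥(A.comap ι)) := by
    by_contra hru
    have hcop : Nat.Coprime ℓ r := by
      rw [Nat.coprime_primes hℓ hr]
      rintro rfl
      exact hℓr dvd_rfl
    have hcopZ : IsCoprime (ℓ : ℤ) (r : ℤ) := Nat.isCoprime_iff_coprime.mpr hcop
    obtain ⟨u, v, huv⟩ := hcopZ
    have h1 : ((ℓ : ℕ) : ↥(A.comap ι)) ∈ IsLocalRing.maximalIdeal ↥(A.comap ι) := by
      rw [IsLocalRing.mem_maximalIdeal, mem_nonunits_iff]; exact hℓ'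
    have h2 : ((r : ℕ) : ↥(A.comap ι)) ∈ IsLocalRing.maximalIdeal ↥(A.comap ι) := by
      rw [IsLocalRing.mem_maximalIdeal, mem_nonunits_iff]; exact hru
    have h3 : (1 : ↥(A.comap ι)) ∈ IsLocalRing.maximalIdeal ↥(A.comap ι) := by
      have h4 : ((u : ↥(A.comap ι)) * ((ℓ : ℕ) : ↥(A.comap ι))
          + (v : ↥(A.comap ι)) * ((r : ℕ) : ↥(A.comap ι))) = 1 := by
        have := congrArg (fun z : ℤ => (z : ↥(A.comap ι))) huv
        simpa using this
      rw [← h4]
      exact Ideal.add_mem _ (Ideal.mul_mem_left _ _ h1) (Ideal.mul_mem_left _ _ h2)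
    exact (Ideal.ne_top_iff_one _).mp (IsLocalRing.maximalIdeal.isMaximal _).ne_top h3
  -- the coefficient conditions
  have ha : ∀ n : ℤ, ((⟨a₁, ha₁⟩ : ModelField K₁ N) : LaurentSeries K₁).coeff n
      ∈ (algebraMap ↥(A.comap ι) K₁).range := fun n => ⟨⟨a₁.coeff n, hmema n⟩, rfl⟩
  have hb : ∀ n : ℤ, ((⟨b₁, hb₁⟩ : ModelField K₁ N) : LaurentSeries K₁).coeff n
      ∈ (algebraMap ↥(A.comap ι) K₁).range := fun n => ⟨⟨b₁.coeff n, hmemb n⟩, rfl⟩
  have hresab : ∀ n : ℤ, IsLocalRing.residue A (a.coeff n) = IsLocalRing.residue A (b.coeff n) := by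
    intro n
    have := congrArg (fun z => HahnSeries.coeff z n) hred
    simpa using this
  have hbu : ∃ (n : ℤ) (c : ↥(A.comap ι)), IsUnit c ∧
      algebraMap ↥(A.comap ι) K₁ c = ((⟨b₁, hb₁⟩ : ModelField K₁ N) : LaurentSeries K₁).coeff n := by
    have hneb : coeffMap (IsLocalRing.residue A) b ≠ 0 := hred ▸ hne
    obtain ⟨n, hn⟩ : ∃ n : ℤ, (coeffMap (IsLocalRing.residue A) b).coeff n ≠ 0 := by
      by_contra hcon
      push Not at hcon
      exact hneb (HahnSeries.ext (funext fun n => by simpa using hcon n))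
    rw [coeffMap_coeff] at hn
    have hunit : IsUnit (b.coeff n) := by
      by_contra hnu
      exact hn ((IsLocalRing.residue_eq_zero_iff _).mpr
        ((IsLocalRing.mem_maximalIdeal _).mpr hnu))
    refine ⟨n, ⟨b₁.coeff n, hmemb n⟩, ?_, rfl⟩
    rw [isUnit_comap_iff]
    have : (⟨ι (b₁.coeff n), hmemb n⟩ : ↥A) = b.coeff n := Subtype.ext (hcoefb n)
    rw [this]
    exact hunit
  have hab : ∀ n : ℤ, ∃ c : ↥(A.comap ι), ¬ IsUnit c ∧
      algebraMap ↥(A.comap ι) K₁ c = (((⟨a₁, ha₁⟩ : ModelField K₁ N) : LaurentSeries K₁)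
        - ((⟨b₁, hb₁⟩ : ModelField K₁ N) : LaurentSeries K₁)).coeff n := by
    intro n
    have hmem : a₁.coeff n - b₁.coeff n ∈ A.comap ι := sub_mem (hmema n) (hmemb n)
    refine ⟨⟨a₁.coeff n - b₁.coeff n, hmem⟩, ?_, ?_⟩
    · rw [isUnit_comap_iff]
      have : (⟨ι (a₁.coeff n - b₁.coeff n), hmem⟩ : ↥A) = a.coeff n - b.coeff n :=
        Subtype.ext (by
          show ι (a₁.coeff n - b₁.coeff n) = ((a.coeff n : A) : QBar) - ((b.coeff n : A) : QBar)
          rw [map_sub, hcoefa, hcoefb])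
      rw [this]
      intro hu
      have h0 : IsLocalRing.residue A (a.coeff n - b.coeff n) = 0 := by
        rw [map_sub, hresab n, sub_self]
      rw [IsLocalRing.residue_eq_zero_iff, IsLocalRing.mem_maximalIdeal, mem_nonunits_iff] at h0
      exact h0 hu
    · show a₁.coeff n - b₁.coeff n = (a₁ - b₁).coeff n
      rw [HahnSeries.coeff_sub]
  exact klAsm_core N ℓ x₀ M hx₀ hAbs hTr hGB hBR hQ (Fermat.Agent.H60.modelCuspPlace N)
    Fermat.Agent.H33.KLM.modelRoot modelConst K₁ ↥(A.comap ι) hℓ' hζM r hr hrA hζr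
    ⟨a₁, ha₁⟩ ⟨b₁, hb₁⟩ ha hb hbu hab hord hγ

end StepB

end Fermat.Agent.H93.KL
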