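/-
helper93 (P-ES / KL-ASM adapters): a proper valuation subring of a number field is a discrete
valuation ring.  In particular `A ∩ K₁` is a DVR for every valuation subring `A` of `ℚ̄` lying
over a prime and every number field `K₁ → ℚ̄`.
-/
import Mathlib
import Fermat.Prelude.Def_FLTPrelim_Ramification

set_option autoImplicit false

noncomputable section

namespace Fermat.Agent.H93.KL

open NumberField

section NF

variable {K : Type} [Field K]

/-- The ring of integers of a number field lies in every valuation subring. -/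
theorem ringOfIntegers_mem_valuationSubring (V : ValuationSubring K) (x : 𝓞 K) :
    (x : K) ∈ V := by
  have hx : IsIntegral ℤ (x : K) := RingOfIntegers.isIntegral_coe x
  have hx' : IsIntegral V (x : K) := hx.tower_top
  obtain ⟨y, hy⟩ := IsIntegrallyClosed.isIntegral_iff.mp hx'
  rw [← hy]
  exact y.2

/-- The inclusion `𝓞 K → V`. -/
def ringOfIntegersToValuationSubring (V : ValuationSubring K) : 𝓞 K →+* V :=
  (algebraMap (𝓞 K) K).codRestrict V.toSubring (ringOfIntegers_mem_valuationSubring V)

@[simp]
theorem ringOfIntegersToValuationSubring_coe (V : ValuationSubring K) (x : 𝓞 K) :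
    ((ringOfIntegersToValuationSubring V x : V) : K) = (x : K) := rfl

variable [NumberField K]

/-- The centre of a valuation subring on the ring of integers. -/
def valuationCentre (V : ValuationSubring K) : Ideal (𝓞 K) :=
  (IsLocalRing.maximalIdeal V).comap (ringOfIntegersToValuationSubring V)

instance valuationCentre_isPrime (V : ValuationSubring K) : (valuationCentre V).IsPrime :=
  Ideal.comap_isPrime _ _

theorem valuationCentre_ne_bot (V : ValuationSubring K) (hV : V ≠ ⊤) :
    valuationCentre V ≠ ⊥ := by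
  -- pick `x ∉ V`
  obtain ⟨x, hx⟩ : ∃ x : K, x ∉ V := by
    by_contra h
    push Not at h
    exact hV (SetLike.ext fun x => ⟨fun _ => ValuationSubring.mem_top x, fun _ => h x⟩)
  have hx0 : x ≠ 0 := fun h => hx (h ▸ V.zero_mem)
  obtain ⟨a, b, hb, hab⟩ := IsFractionRing.div_surjective (A := 𝓞 K) x
  have hb0 : b ≠ 0 := nonZeroDivisors.ne_zero hb
  have haK : algebraMap (𝓞 K) K a ≠ 0 := by
    intro h
    rw [h, zero_div] at hab
    exact hx0 hab.symm
  -- `b ∈ centre`
  have hxinv : x⁻¹ ∈ V := (V.mem_or_inv_mem x).resolve_left hx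
  have hbmem : b ∈ valuationCentre V := by
    show ringOfIntegersToValuationSubring V b ∈ IsLocalRing.maximalIdeal V
    rw [IsLocalRing.mem_maximalIdeal, mem_nonunits_iff]
    intro hunit
    -- then `b⁻¹ ∈ V`, so `x = a * b⁻¹ ∈ V`
    obtain ⟨c, hc⟩ := isUnit_iff_exists_inv.mp hunit
    have hc' : algebraMap (𝓞 K) K b * (c : K) = 1 := congrArg Subtype.val hc
    have : x = algebraMap (𝓞 K) K a * (c : K) := by
      rw [← hab, div_eq_mul_inv]
      congr 1
      exact inv_eq_of_mul_eq_one_right hc'
    apply hx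
    rw [this]
    exact V.mul_mem _ _ (ringOfIntegers_mem_valuationSubring V a) c.2
  intro hbot
  rw [hbot, Ideal.mem_bot] at hbmem
  exact hb0 hbmem

/-- A proper valuation subring of a number field is a discrete valuation ring. -/
theorem isDiscreteValuationRing_of_ne_top (V : ValuationSubring K) (hV : V ≠ ⊤) :
    IsDiscreteValuationRing V := by
  have h𝔭0 : valuationCentre V ≠ ⊥ := valuationCentre_ne_bot V hV
  let Rp := Localization.AtPrime (valuationCentre V)
  haveI : IsDiscreteValuationRing Rp :=
    IsLocalization.AtPrime.isDiscreteValuationRing_of_dedekind_domain (𝓞 K) h𝔭0 Rp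
  -- units
  have hunits : ∀ s : (valuationCentre V).primeCompl,
      IsUnit (ringOfIntegersToValuationSubring V (s : 𝓞 K)) := by
    intro s
    by_contra hs
    exact s.2 (by
      show ringOfIntegersToValuationSubring V (s : 𝓞 K) ∈ IsLocalRing.maximalIdeal V
      rw [IsLocalRing.mem_maximalIdeal, mem_nonunits_iff]
      exact hs)
  let φ : Rp →+* V := IsLocalization.lift (M := (valuationCentre V).primeCompl) hunits
  have hφ : ∀ r : 𝓞 K, φ (algebraMap (𝓞 K) Rp r) = ringOfIntegersToValuationSubring V r :=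
    fun r => IsLocalization.lift_eq hunits r
  letI algRpK : Algebra Rp K := (V.subtype.comp φ).toAlgebra
  have halg : ∀ y : Rp, algebraMap Rp K y = ((φ y : V) : K) := fun y => rfl
  haveI : IsScalarTower (𝓞 K) Rp K := IsScalarTower.of_algebraMap_eq (fun r => by
    rw [halg, hφ]; rfl)
  haveI : IsFractionRing Rp K :=
    IsFractionRing.isFractionRing_of_isDomain_of_isLocalization
      (valuationCentre V).primeCompl Rp K
  have hinj : Function.Injective φ := by
    intro y z hyz
    apply IsFractionRing.injective Rp K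
    rw [halg, halg, hyz]
  have hsurj : Function.Surjective φ := by
    rintro ⟨x, hx⟩
    rcases ValuationRing.isInteger_or_isInteger Rp x with ⟨y, hy⟩ | ⟨y, hy⟩
    · exact ⟨y, Subtype.ext (by rw [← halg, hy])⟩
    · by_cases hx0 : x = 0
      · exact ⟨0, Subtype.ext (by simp [hx0])⟩
      by_cases hyu : IsUnit y
      · obtain ⟨z, hz⟩ := isUnit_iff_exists_inv.mp hyu
        refine ⟨z, Subtype.ext ?_⟩
        have h1 : algebraMap Rp K y * algebraMap Rp K z = 1 := by
          rw [← map_mul, hz, map_one]
        rw [hy] at h1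
        have : algebraMap Rp K z = x := by
          have := inv_eq_of_mul_eq_one_right h1
          rw [inv_inv] at this
          exact this.symm
        show ((φ z : V) : K) = x
        rw [← halg]
        exact this
      · exfalso
        -- `y ∈ 𝔪`, so `φ y ∈ 𝔪_V`, but `φ y = x⁻¹` with `x ∈ V`
        obtain ⟨a, s, rfl⟩ := IsLocalization.exists_mk'_eq (valuationCentre V).primeCompl y
        have ha : a ∈ valuationCentre V := by
          by_contra ha
          exact hyu ((IsLocalization.AtPrime.isUnit_mk'_iff Rp (valuationCentre V) a s).mpr ha)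
        have hφa : φ (IsLocalization.mk' Rp a s) * ringOfIntegersToValuationSubring V (s : 𝓞 K)
            = ringOfIntegersToValuationSubring V a := by
          rw [← hφ, ← hφ, ← map_mul, IsLocalization.mk'_spec]
        have hnon : φ (IsLocalization.mk' Rp a s) ∈ IsLocalRing.maximalIdeal V := by
          have h1 : ringOfIntegersToValuationSubring V a ∈ IsLocalRing.maximalIdeal V := ha
          rw [← hφa] at h1
          rcases (IsLocalRing.maximalIdeal.isMaximal V).isPrime.mem_or_mem h1 with h2 | h2
          · exact h2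
          · exact absurd (hunits s) ((IsLocalRing.mem_maximalIdeal _).mp h2)
        rw [IsLocalRing.mem_maximalIdeal, mem_nonunits_iff] at hnon
        apply hnon
        refine isUnit_iff_exists_inv.mpr ⟨⟨x, hx⟩, Subtype.ext ?_⟩
        show ((φ (IsLocalization.mk' Rp a s) : V) : K) * x = 1
        rw [← halg, hy]
        exact inv_mul_cancel₀ hx0
  exact IsDiscreteValuationRing.RingEquivClass.isDiscreteValuationRing
    (RingEquiv.ofBijective φ ⟨hinj, hsurj⟩)

end NF

section Comap

variable {K₁ L : Type} [Field K₁] [Field L]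

/-- If `A` lies over `ℓ ≠ 0` (i.e. `ℓ` is a nonunit of `A`), then `A ∩ K₁` is a proper valuation
subring of `K₁`. -/
theorem comap_ne_top_of_liesOverPrime (ι : K₁ →+* L) (A : ValuationSubring L) {ℓ : ℕ}
    (hℓ : (ℓ : L) ≠ 0) (hA : A.LiesOverPrime ℓ) : A.comap ι ≠ ⊤ := by
  intro htop
  have h1 : ((ℓ : K₁)⁻¹ : K₁) ∈ A.comap ι := htop ▸ ValuationSubring.mem_top _
  rw [ValuationSubring.mem_comap, map_inv₀, map_natCast] at h1
  have h2 : (ℓ : L) ∈ A.nonunits := hA
  rw [ValuationSubring.mem_nonunits_iff_exists_mem_maximalIdeal] at h2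
  obtain ⟨hmem, hmax⟩ := h2
  rw [IsLocalRing.mem_maximalIdeal, mem_nonunits_iff] at hmax
  apply hmax
  exact isUnit_iff_exists_inv.mpr ⟨⟨(ℓ : L)⁻¹, h1⟩, Subtype.ext (mul_inv_cancel₀ hℓ)⟩

/-- `ℓ` is a nonunit of `A ∩ K₁`. -/
theorem natCast_mem_nonunits_comap (ι : K₁ →+* L) (A : ValuationSubring L) {ℓ : ℕ}
    (hA : A.LiesOverPrime ℓ) : (ℓ : K₁) ∈ (A.comap ι).nonunits := by
  have h2 : (ℓ : L) ∈ A.nonunits := hA
  rw [ValuationSubring.mem_nonunits_iff_exists_mem_maximalIdeal] at h2 ⊢
  obtain ⟨hmem, hmax⟩ := h2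
  have hmem' : (ℓ : K₁) ∈ A.comap ι := by
    rw [ValuationSubring.mem_comap, map_natCast]; exact hmem
  refine ⟨hmem', ?_⟩
  rw [IsLocalRing.mem_maximalIdeal, mem_nonunits_iff] at hmax ⊢
  intro hu
  apply hmax
  obtain ⟨c, hc⟩ := isUnit_iff_exists_inv.mp hu
  have hc' : (ℓ : K₁) * (c : K₁) = 1 := congrArg Subtype.val hc
  refine isUnit_iff_exists_inv.mpr ⟨⟨ι (c : K₁), c.2⟩, Subtype.ext ?_⟩
  show (ℓ : L) * ι (c : K₁) = 1
  rw [← map_natCast ι, ← map_mul, hc', map_one]

/-- **`A ∩ K₁` is a discrete valuation ring** for a number field `K₁ → L` (e.g. `L = ℚ̄`) and a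
valuation subring `A` of `L` lying over a prime `ℓ`. -/
theorem comap_isDiscreteValuationRing [NumberField K₁] (ι : K₁ →+* L)
    (A : ValuationSubring L) {ℓ : ℕ} (hℓ : (ℓ : L) ≠ 0) (hA : A.LiesOverPrime ℓ) :
    IsDiscreteValuationRing ↥(A.comap ι) :=
  isDiscreteValuationRing_of_ne_top _ (comap_ne_top_of_liesOverPrime ι A hℓ hA)

end Comap

end Fermat.Agent.H93.KL
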