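/-
P-ES / KL-DESC-b1 (helper93): a simple constant field extension is unramified at every discrete
valuation ring containing the constants (characteristic zero).  Mathlib only.
-/
import Mathlib
import Fermat.Agent.H93.KL.DescInterfaces

set_option autoImplicit false

noncomputable section

namespace Fermat.Agent.H93.KL

open Polynomial

section core

variable {K₁ F₁ E : Type} [Field K₁] [Field F₁] [Field E] [CharZero K₁]
  [Algebra K₁ F₁] [Algebra F₁ E] [Algebra K₁ E] [IsScalarTower K₁ F₁ E]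
  (O : ValuationSubring F₁) (W : ValuationSubring E)

/-- The inclusion `O → W`. -/
def ceIncl (hWO : ∀ x : F₁, algebraMap F₁ E x ∈ W ↔ x ∈ O) : ↥O →+* ↥W :=
  ((algebraMap F₁ E).comp O.subtype).codRestrict W.toSubring (fun x => (hWO x).mpr x.2)

@[simp]
theorem ceIncl_coe (hWO : ∀ x : F₁, algebraMap F₁ E x ∈ W ↔ x ∈ O) (x : ↥O) :
    ((ceIncl O W hWO x : ↥W) : E) = algebraMap F₁ E (x : F₁) := rfl

theorem ceIncl_isLocalHom (hWO : ∀ x : F₁, algebraMap F₁ E x ∈ W ↔ x ∈ O) :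
    IsLocalHom (ceIncl O W hWO) := by
  constructor
  intro x hx
  have hx0 : (x : F₁) ≠ 0 := by
    intro h
    have : ceIncl O W hWO x = 0 := by
      apply Subtype.ext
      simp [h]
    rw [this] at hx
    exact not_isUnit_zero hx
  obtain ⟨u, hu⟩ := hx
  have h1 : ((u⁻¹ : (↥W)ˣ) : E) = algebraMap F₁ E ((x : F₁)⁻¹) := by
    have h2 : ((u : ↥W) : E) * ((u⁻¹ : (↥W)ˣ) : E) = 1 := by
      exact Subtype.ext_iff.mp (Units.mul_inv u)
    have h3 : ((u : ↥W) : E) = algebraMap F₁ E (x : F₁) := by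
      rw [hu]; rfl
    rw [h3] at h2
    rw [map_inv₀]
    have hne : algebraMap F₁ E (x : F₁) ≠ 0 := by
      simpa using hx0
    field_simp
    rw [mul_comm]; exact h2
  have h4 : (x : F₁)⁻¹ ∈ O := by
    rw [← hWO, ← h1]
    exact (u⁻¹ : (↥W)ˣ).1.2
  exact IsUnit.of_mul_eq_one ⟨(x : F₁)⁻¹, h4⟩ (Subtype.ext (mul_inv_cancel₀ hx0))


/-- Evaluation of polynomials over `O` at `θ ∈ E`. -/
def ceEv (θ : E) : Polynomial ↥O →+* E :=
  Polynomial.eval₂RingHom ((algebraMap F₁ E).comp O.subtype) θ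

/-- Evaluation of polynomials over `O` at an element of `W`. -/
def ceEvW (hWO : ∀ x : F₁, algebraMap F₁ E x ∈ W ↔ x ∈ O) (θW : ↥W) : Polynomial ↥O →+* ↥W :=
  Polynomial.eval₂RingHom (ceIncl O W hWO) θW

theorem ceEvW_coe (hWO : ∀ x : F₁, algebraMap F₁ E x ∈ W ↔ x ∈ O) (θW : ↥W)
    (h : Polynomial ↥O) : ((ceEvW O W hWO θW h : ↥W) : E) = ceEv O (θW : E) h := by
  have h1 := Polynomial.hom_eval₂ h (ceIncl O W hWO) W.subtype θW
  have h2 : W.subtype.comp (ceIncl O W hWO) = (algebraMap F₁ E).comp O.subtype := rfl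
  rw [h2] at h1
  exact h1

theorem ceEv_mem (hWO : ∀ x : F₁, algebraMap F₁ E x ∈ W ↔ x ∈ O) {θ : E} (hθW : θ ∈ W)
    (h : Polynomial ↥O) : ceEv O θ h ∈ W := by
  have := ceEvW_coe O W hWO ⟨θ, hθW⟩ h
  rw [← this]
  exact (ceEvW O W hWO ⟨θ, hθW⟩ h).2

theorem ce_residue_ceEvW (hWO : ∀ x : F₁, algebraMap F₁ E x ∈ W ↔ x ∈ O) (θW : ↥W)
    (h : Polynomial ↥O) :
    haveI := ceIncl_isLocalHom O W hWO
    IsLocalRing.residue ↥W (ceEvW O W hWO θW h) =
      Polynomial.eval₂ (IsLocalRing.ResidueField.map (ceIncl O W hWO))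
        (IsLocalRing.residue ↥W θW) (h.map (IsLocalRing.residue ↥O)) := by
  have := ceIncl_isLocalHom O W hWO
  rw [Polynomial.eval₂_map]
  have := Polynomial.hom_eval₂ h (ceIncl O W hWO) (IsLocalRing.residue ↥W) θW
  rw [ceEvW, Polynomial.coe_eval₂RingHom, this]
  rfl

omit [CharZero K₁] in
/-- an element integral over the constants lies in every valuation ring above `O`. -/
theorem ce_mem_of_isIntegral (hK : ∀ a : K₁, algebraMap K₁ F₁ a ∈ O)
    (hWO : ∀ x : F₁, algebraMap F₁ E x ∈ W ↔ x ∈ O) {θ : E} (hθ : IsIntegral K₁ θ) :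
    θ ∈ W := by
  have hint : IsIntegral ↥W θ := by
    obtain ⟨p, hp, hp0⟩ := hθ
    let f : K₁ →+* ↥W := (ceIncl O W hWO).comp ((algebraMap K₁ F₁).codRestrict O.toSubring hK)
    refine ⟨p.map f, hp.map f, ?_⟩
    rw [Polynomial.eval₂_map]
    have hf : (algebraMap ↥W E).comp f = algebraMap K₁ E := by
      ext a
      simp only [RingHom.comp_apply, f]
      rw [IsScalarTower.algebraMap_apply K₁ F₁ E]
      rfl
    rw [hf]
    exact hp0
  obtain ⟨y, hy⟩ := IsIntegrallyClosed.isIntegral_iff.mp hint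
  rw [← hy]
  exact y.2


omit [CharZero K₁] [Algebra K₁ F₁] [Algebra K₁ E] in
/-- units of `W` in terms of membership. -/
theorem ce_isUnit_iff (x : ↥W) : IsUnit x ↔ (x : E) ≠ 0 ∧ (x : E)⁻¹ ∈ W := by
  constructor
  · rintro ⟨u, rfl⟩
    have h2 : ((u : ↥W) : E) * ((u⁻¹ : (↥W)ˣ) : E) = 1 := Subtype.ext_iff.mp (Units.mul_inv u)
    have hne : ((u : ↥W) : E) ≠ 0 := left_ne_zero_of_mul_eq_one h2
    refine ⟨hne, ?_⟩
    have : ((u : ↥W) : E)⁻¹ = ((u⁻¹ : (↥W)ˣ) : E) := inv_eq_of_mul_eq_one_right h2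
    rw [this]
    exact (u⁻¹ : (↥W)ˣ).1.2
  · rintro ⟨hne, hinv⟩
    exact IsUnit.of_mul_eq_one ⟨(x : E)⁻¹, hinv⟩ (Subtype.ext (mul_inv_cancel₀ hne))

/-- **Key lemma.**  If `b = h(θ)` is a non-unit of `W` then `u * b = t * b'` with `u = ψ(θ)` a unit
of `W` and `b' = ρ(θ)`. -/
theorem ce_key (hK : ∀ a : K₁, algebraMap K₁ F₁ a ∈ O)
    (hWO : ∀ x : F₁, algebraMap F₁ E x ∈ W ↔ x ∈ O)
    (tO : ↥O) (hunif : ∀ x : ↥O, ¬ IsUnit x → tO ∣ x)
    {θ : E} (hθ : IsIntegral K₁ θ) (h : Polynomial ↥O)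
    (hb : ceEv O θ h = 0 ∨ (ceEv O θ h)⁻¹ ∉ W) :
    ∃ ψ ρ : Polynomial ↥O, ceEv O θ ψ ≠ 0 ∧ (ceEv O θ ψ)⁻¹ ∈ W ∧
      ceEv O θ h * ceEv O θ ψ = algebraMap F₁ E (tO : F₁) * ceEv O θ ρ := by
  classical
  have hθW := ce_mem_of_isIntegral O W hK hWO hθ
  have hloc := ceIncl_isLocalHom O W hWO
  set θW : ↥W := ⟨θ, hθW⟩ with hθWdef
  set ιbar := IsLocalRing.ResidueField.map (ceIncl O W hWO) with hιbar
  set θbar := IsLocalRing.residue ↥W θW with hθbar
  have hres : ∀ p : Polynomial ↥O, IsLocalRing.residue ↥W (ceEvW O W hWO θW p) =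
      Polynomial.eval₂ ιbar θbar (p.map (IsLocalRing.residue ↥O)) :=
    fun p => ce_residue_ceEvW O W hWO θW p
  -- the residue of `b` vanishes
  have hb0 : Polynomial.eval₂ ιbar θbar (h.map (IsLocalRing.residue ↥O)) = 0 := by
    rw [← hres, IsLocalRing.residue_eq_zero_iff, IsLocalRing.mem_maximalIdeal, mem_nonunits_iff,
      ce_isUnit_iff, ceEvW_coe]
    rintro ⟨h1, h2⟩
    rcases hb with hb | hb
    · exact h1 hb
    · exact hb h2
  -- the minimal polynomial of `θ` over the constants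
  set kO : K₁ →+* ↥O := (algebraMap K₁ F₁).codRestrict O.toSubring hK with hkO
  set gO : Polynomial ↥O := (minpoly K₁ θ).map kO with hgO
  have hg0 : ceEv O θ gO = 0 := by
    rw [ceEv, Polynomial.coe_eval₂RingHom, hgO, Polynomial.eval₂_map]
    have hf : ((algebraMap F₁ E).comp O.subtype).comp kO = algebraMap K₁ E := by
      ext a
      simp only [RingHom.comp_apply]
      rw [IsScalarTower.algebraMap_apply K₁ F₁ E]
      rfl
    rw [hf]
    exact minpoly.aeval K₁ θ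
  have hgbar : Polynomial.eval₂ ιbar θbar (gO.map (IsLocalRing.residue ↥O)) = 0 := by
    rw [← hres]
    have : ceEvW O W hWO θW gO = 0 := by
      apply Subtype.ext
      rw [ceEvW_coe]
      exact hg0
    rw [this, map_zero]
  have hsep : (gO.map (IsLocalRing.residue ↥O)).Separable := by
    rw [hgO, Polynomial.map_map]
    exact ((minpoly.irreducible hθ).separable).map
  -- gcd
  set hbar := h.map (IsLocalRing.residue ↥O) with hhbar
  set gbar := gO.map (IsLocalRing.residue ↥O) with hgbardef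
  obtain ⟨η, hη⟩ : EuclideanDomain.gcd hbar gbar ∣ hbar := EuclideanDomain.gcd_dvd_left _ _
  obtain ⟨ψ, hψ⟩ : EuclideanDomain.gcd hbar gbar ∣ gbar := EuclideanDomain.gcd_dvd_right _ _
  have hδ0 : Polynomial.eval₂ ιbar θbar (EuclideanDomain.gcd hbar gbar) = 0 := by
    rw [EuclideanDomain.gcd_eq_gcd_ab, Polynomial.eval₂_add, Polynomial.eval₂_mul,
      Polynomial.eval₂_mul, hb0, hgbar, zero_mul, zero_mul, add_zero]
  have hcop : IsCoprime (EuclideanDomain.gcd hbar gbar) ψ := by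
    have : (EuclideanDomain.gcd hbar gbar * ψ).Separable := by rw [← hψ]; exact hsep
    exact this.isCoprime
  have hψ0 : Polynomial.eval₂ ιbar θbar ψ ≠ 0 := by
    obtain ⟨p, q, hpq⟩ := hcop
    intro h0
    have := congrArg (Polynomial.eval₂ ιbar θbar) hpq
    rw [Polynomial.eval₂_add, Polynomial.eval₂_mul, Polynomial.eval₂_mul, hδ0, h0, mul_zero,
      mul_zero, add_zero, Polynomial.eval₂_one] at this
    exact zero_ne_one this
  -- lifts
  obtain ⟨ψt, hψt⟩ := Polynomial.map_surjective (IsLocalRing.residue ↥O)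
    IsLocalRing.residue_surjective ψ
  obtain ⟨ηt, hηt⟩ := Polynomial.map_surjective (IsLocalRing.residue ↥O)
    IsLocalRing.residue_surjective η
  have hD : (h * ψt - gO * ηt).map (IsLocalRing.residue ↥O) = 0 := by
    rw [Polynomial.map_sub, Polynomial.map_mul, Polynomial.map_mul, hψt, hηt]
    change hbar * ψ - gbar * η = 0
    conv_lhs => rw [hη]
    conv_lhs => enter [2]; rw [hψ]
    ring
  have hdvd : Polynomial.C tO ∣ (h * ψt - gO * ηt) := by
    rw [Polynomial.C_dvd_iff_dvd_coeff]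
    intro i
    apply hunif
    have h1 := congrArg (fun p => Polynomial.coeff p i) hD
    simp only [Polynomial.coeff_map, Polynomial.coeff_zero] at h1
    rw [IsLocalRing.residue_eq_zero_iff, IsLocalRing.mem_maximalIdeal, mem_nonunits_iff] at h1
    exact h1
  obtain ⟨ρ, hρ⟩ := hdvd
  refine ⟨ψt, ρ, ?_, ?_, ?_⟩
  · have hu : IsUnit (ceEvW O W hWO θW ψt) := by
      rw [← not_not (a := IsUnit _), ← mem_nonunits_iff, ← IsLocalRing.mem_maximalIdeal,
        ← IsLocalRing.residue_eq_zero_iff, hres, hψt]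
      exact hψ0
    have := ((ce_isUnit_iff W _).mp hu).1
    rwa [ceEvW_coe] at this
  · have hu : IsUnit (ceEvW O W hWO θW ψt) := by
      rw [← not_not (a := IsUnit _), ← mem_nonunits_iff, ← IsLocalRing.mem_maximalIdeal,
        ← IsLocalRing.residue_eq_zero_iff, hres, hψt]
      exact hψ0
    have := ((ce_isUnit_iff W _).mp hu).2
    rwa [ceEvW_coe] at this
  · have h1 := congrArg (ceEv O θ) hρ
    rw [map_sub, map_mul, map_mul, map_mul, hg0, zero_mul, sub_zero] at h1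
    rw [h1]
    congr 1
    simp [ceEv]


section unif

omit [CharZero K₁] [Algebra K₁ F₁] [Algebra K₁ E] [IsScalarTower K₁ F₁ E] [Algebra F₁ E]
  [Field K₁] [Field E]

variable {O}
variable {t : F₁} (ht : t ∈ O) (ht' : t⁻¹ ∉ O)
  (hu : ∀ x : F₁, x ≠ 0 → ∃ n : ℤ, x * t ^ n ∈ O ∧ (x * t ^ n)⁻¹ ∈ O)

include ht' in
theorem ce_t_ne_zero : t ≠ 0 := by
  rintro rfl
  apply ht'
  simp [O.zero_mem]

include ht in
theorem ce_pow_mem (k : ℕ) : t ^ k ∈ O := O.pow_mem ht k

include ht ht' hu in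
/-- every element of `F₁` becomes integral after multiplication by a power of `t`. -/
theorem ce_exists_pow_mul_mem (c : F₁) : ∃ m : ℕ, t ^ m * c ∈ O := by
  by_cases hc : c = 0
  · exact ⟨0, by simp [hc, O.zero_mem]⟩
  obtain ⟨n, hn, -⟩ := hu c hc
  have ht0 := ce_t_ne_zero ht'
  rcases n with (k | k)
  · refine ⟨k, ?_⟩
    rw [Int.ofNat_eq_natCast, zpow_natCast] at hn
    rwa [mul_comm]
  · refine ⟨0, ?_⟩
    rw [zpow_negSucc] at hn
    have h1 := O.mul_mem _ _ hn (ce_pow_mem ht (k + 1))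
    have h2 : c * (t ^ (k + 1))⁻¹ * t ^ (k + 1) = c := by
      field_simp
    rw [h2] at h1
    simpa using h1

include ht ht' hu in
/-- `t` generates the maximal ideal of `O`. -/
theorem ce_dvd_of_not_isUnit (x : ↥O) (hx : ¬ IsUnit x) : (⟨t, ht⟩ : ↥O) ∣ x := by
  by_cases hx0 : (x : F₁) = 0
  · have : x = 0 := Subtype.ext hx0
    rw [this]; exact dvd_zero _
  obtain ⟨n, hn, hn'⟩ := hu x hx0
  have ht0 := ce_t_ne_zero ht'
  rcases n with (k | k)
  · exfalso
    apply hx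
    rw [Int.ofNat_eq_natCast, zpow_natCast] at hn hn'
    have h1 := O.mul_mem _ _ hn' (ce_pow_mem ht k)
    have h2 : ((x : F₁) * t ^ k)⁻¹ * t ^ k = (x : F₁)⁻¹ := by
      field_simp
    rw [h2] at h1
    exact IsUnit.of_mul_eq_one ⟨(x : F₁)⁻¹, h1⟩ (Subtype.ext (mul_inv_cancel₀ hx0))
  · rw [zpow_negSucc] at hn
    have h1 := O.mul_mem _ _ hn (ce_pow_mem ht k)
    refine ⟨⟨_, h1⟩, Subtype.ext ?_⟩
    show (x : F₁) = t * ((x : F₁) * (t ^ (k + 1))⁻¹ * t ^ k)
    field_simp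
    ring

include ht ht' hu in
/-- a nonzero element of `O` divides a power of `t`. -/
theorem ce_exists_pow_mul_inv_mem (c : F₁) (hc : c ≠ 0) :
    ∃ k : ℕ, t ^ k * c⁻¹ ∈ O := by
  obtain ⟨n, hn, hn'⟩ := hu c hc
  have ht0 := ce_t_ne_zero ht'
  rcases n with (k | k)
  · refine ⟨0, ?_⟩
    rw [Int.ofNat_eq_natCast, zpow_natCast] at hn hn'
    have h1 := O.mul_mem _ _ hn' (ce_pow_mem ht k)
    have h2 : (c * t ^ k)⁻¹ * t ^ k = c⁻¹ := by
      field_simp
    rw [h2] at h1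
    simpa using h1
  · refine ⟨k + 1, ?_⟩
    rw [zpow_negSucc] at hn'
    have h2 : (c * (t ^ (k + 1))⁻¹)⁻¹ = t ^ (k + 1) * c⁻¹ := by
      field_simp
    rwa [h2] at hn'

include ht ht' hu in
/-- clearing denominators of a polynomial over `F₁`. -/
theorem ce_clear_denominators (p : Polynomial F₁) :
    ∃ (m : ℕ) (pO : Polynomial ↥O), pO.map O.subtype = Polynomial.C (t ^ m) * p := by
  induction p using Polynomial.induction_on' with
  | add p q hp hq =>
    obtain ⟨m₁, P₁, h₁⟩ := hp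
    obtain ⟨m₂, P₂, h₂⟩ := hq
    refine ⟨m₁ + m₂, Polynomial.C (⟨t ^ m₂, ce_pow_mem ht m₂⟩ : ↥O) * P₁ +
      Polynomial.C (⟨t ^ m₁, ce_pow_mem ht m₁⟩ : ↥O) * P₂, ?_⟩
    rw [Polynomial.map_add, Polynomial.map_mul, Polynomial.map_mul, h₁, h₂, Polynomial.map_C,
      Polynomial.map_C]
    simp only [ValuationSubring.subtype_apply]
    rw [pow_add, Polynomial.C_mul]
    ring
  | monomial n c =>
    obtain ⟨m, hm⟩ := ce_exists_pow_mul_mem ht ht' hu c
    refine ⟨m, Polynomial.monomial n (⟨t ^ m * c, hm⟩ : ↥O), ?_⟩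
    rw [Polynomial.map_monomial, Polynomial.C_mul_monomial]
    rfl

end unif


section final

variable {O W}
variable (hK : ∀ a : K₁, algebraMap K₁ F₁ a ∈ O)
  (hWO : ∀ x : F₁, algebraMap F₁ E x ∈ W ↔ x ∈ O)
  {t : F₁} (ht : t ∈ O) (ht' : t⁻¹ ∉ O)
  (hu : ∀ x : F₁, x ≠ 0 → ∃ n : ℤ, x * t ^ n ∈ O ∧ (x * t ^ n)⁻¹ ∈ O)
  {θ : E} (hθ : IsIntegral K₁ θ) (htop : IntermediateField.adjoin F₁ ({θ} : Set E) = ⊤)

omit [CharZero K₁] [Field K₁] [Algebra K₁ F₁] [Algebra K₁ E] [IsScalarTower K₁ F₁ E] in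
include hWO ht ht' hu in
/-- **Termination.**  A nonzero element of `W` which is algebraic over `F₁` divides a power of
`t` in `W`. -/
theorem ce_exists_pow_mul_inv_mem_W {b : E} (hb0 : b ≠ 0) (hbW : b ∈ W)
    (hint : IsIntegral F₁ b) : ∃ k : ℕ, algebraMap F₁ E t ^ k * b⁻¹ ∈ W := by
  obtain ⟨m, pO, hpO⟩ := ce_clear_denominators ht ht' hu (minpoly F₁ b)
  have ht0 := ce_t_ne_zero ht'
  -- `pO (b) = 0`
  have h1 : ceEv O b pO = 0 := by
    have : ceEv O b pO = Polynomial.eval₂ (algebraMap F₁ E) b (pO.map O.subtype) := by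
      rw [Polynomial.eval₂_map]; rfl
    rw [this, hpO, Polynomial.eval₂_mul, Polynomial.eval₂_C]
    have : Polynomial.eval₂ (algebraMap F₁ E) b (minpoly F₁ b) = 0 := minpoly.aeval F₁ b
    rw [this, mul_zero]
  -- constant coefficient
  have hc0 : ((pO.coeff 0 : ↥O) : F₁) = t ^ m * (minpoly F₁ b).coeff 0 := by
    have := congrArg (fun p => Polynomial.coeff p 0) hpO
    simp only [Polynomial.coeff_map, Polynomial.coeff_C_mul] at this
    exact this
  have hc0ne : ((pO.coeff 0 : ↥O) : F₁) ≠ 0 := by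
    rw [hc0]
    exact mul_ne_zero (pow_ne_zero _ ht0) (minpoly.coeff_zero_ne_zero hint hb0)
  -- split off the constant coefficient
  have h2 := Polynomial.divX_mul_X_add pO
  have h3 : ceEv O b (Polynomial.divX pO) * b + algebraMap F₁ E ((pO.coeff 0 : ↥O) : F₁) = 0 := by
    have := congrArg (ceEv O b) h2
    rw [h1, map_add, map_mul] at this
    simpa [ceEv] using this
  have hq : ceEv O b (Polynomial.divX pO) ∈ W := ceEv_mem O W hWO hbW _
  obtain ⟨k, hk⟩ := ce_exists_pow_mul_inv_mem ht ht' hu _ hc0ne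
  refine ⟨k, ?_⟩
  have h4 : algebraMap F₁ E (t ^ k * ((pO.coeff 0 : ↥O) : F₁)⁻¹) ∈ W := (hWO _).mpr hk
  have hcE : algebraMap F₁ E ((pO.coeff 0 : ↥O) : F₁) ≠ 0 := by
    simpa using hc0ne
  have h5 : algebraMap F₁ E t ^ k * b⁻¹ =
      -(ceEv O b (Polynomial.divX pO)) *
        algebraMap F₁ E (t ^ k * ((pO.coeff 0 : ↥O) : F₁)⁻¹) := by
    have h6 : algebraMap F₁ E ((pO.coeff 0 : ↥O) : F₁) = -(ceEv O b (Polynomial.divX pO) * b) :=
      eq_neg_of_add_eq_zero_right h3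
    rw [map_mul, map_inv₀, map_pow, h6]
    have hq0 : ceEv O b (Polynomial.divX pO) ≠ 0 := by
      intro h0
      rw [h0, zero_mul, neg_zero] at h6
      exact hcE h6
    field_simp
  rw [h5]
  exact W.mul_mem _ _ (W.neg_mem _ hq) h4

include hK hWO ht ht' hu hθ in
/-- **Induction.** -/
theorem ce_induction (k : ℕ) : ∀ h : Polynomial ↥O, ceEv O θ h ≠ 0 →
    algebraMap F₁ E t ^ k * (ceEv O θ h)⁻¹ ∈ W →
    ∃ j : ℕ, ceEv O θ h * (algebraMap F₁ E t ^ j)⁻¹ ∈ W ∧
      algebraMap F₁ E t ^ j * (ceEv O θ h)⁻¹ ∈ W := by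
  have hθW := ce_mem_of_isIntegral O W hK hWO hθ
  have ht0 := ce_t_ne_zero ht'
  have htE : algebraMap F₁ E t ≠ 0 := by simpa using ht0
  induction k with
  | zero =>
    intro h hne hk
    refine ⟨0, ?_, ?_⟩
    · simpa using ceEv_mem O W hWO hθW h
    · simpa using hk
  | succ k ih =>
    intro h hne hk
    by_cases hinv : (ceEv O θ h)⁻¹ ∈ W
    · refine ⟨0, ?_, ?_⟩
      · simpa using ceEv_mem O W hWO hθW h
      · simpa using hinv
    · obtain ⟨ψ, ρ, hψ0, hψ, hmul⟩ := ce_key O W hK hWO ⟨t, ht⟩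
        (ce_dvd_of_not_isUnit ht ht' hu) hθ h (Or.inr hinv)
      have hρ0 : ceEv O θ ρ ≠ 0 := by
        intro h0
        rw [h0, mul_zero] at hmul
        exact (mul_ne_zero hne hψ0) hmul
      have hmul' : ceEv O θ h = algebraMap F₁ E t * ceEv O θ ρ * (ceEv O θ ψ)⁻¹ := by
        rw [← hmul]
        field_simp
      have hk' : algebraMap F₁ E t ^ k * (ceEv O θ ρ)⁻¹ ∈ W := by
        have : algebraMap F₁ E t ^ k * (ceEv O θ ρ)⁻¹ =
            algebraMap F₁ E t ^ (k + 1) * (ceEv O θ h)⁻¹ * (ceEv O θ ψ)⁻¹ := by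
          rw [hmul']
          field_simp
          ring
        rw [this]
        exact W.mul_mem _ _ hk hψ
      obtain ⟨j, hj1, hj2⟩ := ih ρ hρ0 hk'
      refine ⟨j + 1, ?_, ?_⟩
      · have : ceEv O θ h * (algebraMap F₁ E t ^ (j + 1))⁻¹ =
            ceEv O θ ρ * (algebraMap F₁ E t ^ j)⁻¹ * (ceEv O θ ψ)⁻¹ := by
          rw [hmul']
          field_simp
          ring
        rw [this]
        exact W.mul_mem _ _ hj1 hψ
      · have : algebraMap F₁ E t ^ (j + 1) * (ceEv O θ h)⁻¹ =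
            algebraMap F₁ E t ^ j * (ceEv O θ ρ)⁻¹ * ceEv O θ ψ := by
          rw [hmul']
          field_simp
          ring
        rw [this]
        exact W.mul_mem _ _ hj2 (ceEv_mem O W hWO hθW ψ)

end final

end core

/-- **KL-DESC-b1.** -/
theorem constExtUnramifiedSimple : ConstExtUnramifiedSimpleStatement := by
  intro K₁ F₁ E _ _ _ _ _ _ _ _ θ hθ htop O W hK hWO t ht ht' hu y hy
  have ht0 := ce_t_ne_zero ht'
  have htE : algebraMap F₁ E t ≠ 0 := by simpa using ht0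
  have hθF : IsIntegral F₁ θ := hθ.tower_top
  -- `E` is finite over `F₁`
  have hfin : FiniteDimensional F₁ E := by
    have h1 : FiniteDimensional F₁ (IntermediateField.adjoin F₁ ({θ} : Set E)) :=
      IntermediateField.adjoin.finiteDimensional hθF
    rw [htop] at h1
    exact (IntermediateField.topEquiv (F := F₁) (E := E)).toLinearEquiv.finiteDimensional
  -- `y = p(θ)`
  have hy' : y ∈ Algebra.adjoin F₁ ({θ} : Set E) := by
    rw [← IntermediateField.adjoin_simple_toSubalgebra_of_isAlgebraic hθF.isAlgebraic, htop]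
    exact Algebra.mem_top
  rw [Algebra.adjoin_singleton_eq_range_aeval] at hy'
  obtain ⟨p, hp⟩ := hy'
  have hp' : Polynomial.aeval θ p = y := hp
  rw [← hp'] at hy ⊢
  obtain ⟨m, pO, hpO⟩ := ce_clear_denominators ht ht' hu p
  have hb : ceEv O θ pO = algebraMap F₁ E t ^ m * Polynomial.aeval θ p := by
    have : ceEv O θ pO = Polynomial.eval₂ (algebraMap F₁ E) θ (pO.map O.subtype) := by
      rw [Polynomial.eval₂_map]; rfl
    rw [this, hpO, Polynomial.eval₂_mul, Polynomial.eval₂_C, map_pow]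
    rfl
  have hb0 : ceEv O θ pO ≠ 0 := by
    rw [hb]
    exact mul_ne_zero (pow_ne_zero _ htE) hy
  have hθW := ce_mem_of_isIntegral O W hK hWO hθ
  obtain ⟨k, hk⟩ := ce_exists_pow_mul_inv_mem_W hWO ht ht' hu hb0 (ceEv_mem O W hWO hθW pO)
    (IsIntegral.of_finite F₁ _)
  obtain ⟨j, hj1, hj2⟩ := ce_induction hK hWO ht ht' hu hθ k pO hb0 hk
  refine ⟨(m : ℤ) - j, ?_, ?_⟩
  · have : Polynomial.aeval θ p * algebraMap F₁ E t ^ ((m : ℤ) - j) =
        ceEv O θ pO * (algebraMap F₁ E t ^ j)⁻¹ := by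
      rw [hb, zpow_sub₀ htE, zpow_natCast, zpow_natCast]
      field_simp
    rw [this]
    exact hj1
  · have : (Polynomial.aeval θ p * algebraMap F₁ E t ^ ((m : ℤ) - j))⁻¹ =
        algebraMap F₁ E t ^ j * (ceEv O θ pO)⁻¹ := by
      rw [hb, zpow_sub₀ htE, zpow_natCast, zpow_natCast]
      field_simp
    rw [this]
    exact hj2

end Fermat.Agent.H93.KL
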