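/-
helper93 (P-ES / KL-DESC, row 359): final unconditional assembly of the number-field descent
package for the KEY LEMMA.

* `constExtUnramified : ConstExtUnramifiedStatement`  (b1 by helper93 + b2 by helper32)
* `placeDescent : PlaceDescentStatement`               (c by helper73)
* `coeffDescent' : CoeffDescentStatement`              (a by helper61, re-exported)
* `klDescent N : KLDescentStatement N`                 (package consumed by KL-ASM)
-/
import Fermat.Agent.H93.KL.ConstExtSimple
import Fermat.Agent.H32.KLDescB2
import Fermat.Agent.H61.KLCoeffDescent
import Fermat.Agent.H73.KLPlaceDesc

set_option autoImplicit false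

namespace Fermat.Agent.H93.KL

/-- Constant field extension `F_{K₁} → F_{ℚ̄}` is unramified at every valuation subring
(general, not necessarily simple, case). -/
theorem constExtUnramified : ConstExtUnramifiedStatement :=
  Fermat.Agent.H32.constExtUnramified constExtUnramifiedSimple

/-- Every place of `F_{K₁}/K₁` is the restriction of a place of `F_{ℚ̄}/ℚ̄`, with ramification
index one. -/
theorem placeDescent : PlaceDescentStatement :=
  Fermat.Agent.H73.KLDesc.placeDescent constExtUnramified

/-- Coefficient descent (helper61), re-exported next to the other two. -/
theorem coeffDescentFinal : CoeffDescentStatement :=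
  Fermat.Agent.H61.coeffDescent

/-- The full descent package for the KEY LEMMA, unconditionally. -/
theorem klDescent (N : ℕ) : KLDescentStatement N :=
  klDescent_of coeffDescentFinal placeDescent N

end Fermat.Agent.H93.KL
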