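/-
helper93 (P-ES / KL-ASM-BC, row 551), steps B + C of KL-ASM: the key lemma for prime exponents
`H88.KLInd.KeyLemmaPrimeStatement N ℓ` from the abstract key lemma and the model statements,
with the unconditional inputs (descent, DVR, cusp place, roots, constants) plugged in.
-/
import Fermat.Agent.H93.KL.AsmStepB
import Fermat.Agent.H93.KL.DescFinal
import Fermat.Agent.H88.ES.KLInd

set_option autoImplicit false

noncomputable section

namespace Fermat.Agent.H93.KL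

open ModularCurve AlgebraicCurve Fermat.Agent.H22.KL

/-- Steps B + C over an abstract number field `ι : K₁ → ℚ̄` containing the descent data, the
roots of unity and an `r`-th root of the ratio of the leading coefficients. -/
theorem klAsm_stepBC (N ℓ : ℕ) [NeZero N] (hℓ : ℓ.Prime) (x₀ : LaurentSeries ℚ)
    (hx₀ : x₀ ∈ modularFunctionFieldFull N) (M : ℕ)
    (hAbs : AbstractKeyLemmaStatement) (hTr : ModelTranscendentalStatement N x₀)
    (hGB : ModelGoodBasisStatement N ℓ x₀) (hBR : ModelBranchStatement N ℓ x₀ M)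
    (hQ : ModelQExpStatement N ℓ x₀)
    (A : ValuationSubring QBar) (hA : A.LiesOverPrime ℓ)
    (r : ℕ) (hr : r.Prime) (hℓr : ¬ ℓ ∣ r)
    (a b : LaurentSeries A)
    (ha : coeffMap A.subtype a ∈ modularFunctionFieldBar N)
    (hb : coeffMap A.subtype b ∈ modularFunctionFieldBar N)
    (hred : coeffMap (IsLocalRing.residue A) a = coeffMap (IsLocalRing.residue A) b)
    (hne : coeffMap (IsLocalRing.residue A) a ≠ 0)
    (K₁ : Type) [Field K₁] [Algebra ℚ K₁] [FiniteDimensional ℚ K₁] (ι : K₁ →+* QBar)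
    (hD : ∃ (a₁ b₁ : LaurentSeries K₁)
      (ha₁ : a₁ ∈ laurentBaseChange K₁ (modularFunctionFieldFull N))
      (hb₁ : b₁ ∈ laurentBaseChange K₁ (modularFunctionFieldFull N)),
      coeffMap ι a₁ = coeffMap A.subtype a ∧ coeffMap ι b₁ = coeffMap A.subtype b ∧
      ∀ P₁ : Place K₁ ↥(laurentBaseChange K₁ (modularFunctionFieldFull N)),
        (r : ℤ) ∣ P₁.ord (⟨a₁, ha₁⟩ : ↥(laurentBaseChange K₁ (modularFunctionFieldFull N)))
          - P₁.ord (⟨b₁, hb₁⟩ : ↥(laurentBaseChange K₁ (modularFunctionFieldFull N))))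
    (ζM ζr γ₀ : QBar) (hζM : IsPrimitiveRoot ζM M) (hζr : IsPrimitiveRoot ζr r)
    (hγ₀ : γ₀ ^ r * (coeffMap A.subtype b).leadingCoeff = (coeffMap A.subtype a).leadingCoeff)
    (hζM' : ζM ∈ ι.range) (hζr' : ζr ∈ ι.range) (hγ₀' : γ₀ ∈ ι.range) :
    ∃ w : modularFunctionFieldBar N,
      w ^ r * (⟨coeffMap A.subtype b, hb⟩ : modularFunctionFieldBar N)
        = (⟨coeffMap A.subtype a, ha⟩ : modularFunctionFieldBar N) := by
  obtain ⟨a₁, b₁, ha₁, hb₁, haa, hbb, hord⟩ := hD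
  obtain ⟨zM, rfl⟩ := hζM'
  obtain ⟨zr, rfl⟩ := hζr'
  obtain ⟨g, rfl⟩ := hγ₀'
  have hzM : IsPrimitiveRoot zM M := IsPrimitiveRoot.of_map_of_injective hζM ι.injective
  have hzr : IsPrimitiveRoot zr r := IsPrimitiveRoot.of_map_of_injective hζr ι.injective
  have hγ : ∃ γ : K₁, γ ^ r * b₁.leadingCoeff = a₁.leadingCoeff := by
    refine ⟨g, ι.injective ?_⟩
    rw [map_mul, map_pow, ← leadingCoeff_coeffMap ι ι.injective,
      ← leadingCoeff_coeffMap ι ι.injective, haa, hbb]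
    exact hγ₀
  obtain ⟨w₀, hw₀⟩ := klAsm_stepB N ℓ x₀ M hℓ hx₀ hAbs hTr hGB hBR hQ K₁ ι A hA ⟨zM, hzM⟩
    r hr hℓr ⟨zr, hzr⟩ a b hred hne a₁ b₁ ha₁ hb₁ haa hbb hord hγ
  refine ⟨klBc ι (modularFunctionFieldFull N) w₀, ?_⟩
  have h := congrArg (klBc ι (modularFunctionFieldFull N)) hw₀
  rw [map_mul, map_pow] at h
  have e1 : klBc ι (modularFunctionFieldFull N) ⟨b₁, hb₁⟩
      = (⟨coeffMap A.subtype b, hb⟩ : modularFunctionFieldBar N) := Subtype.ext hbb
  have e2 : klBc ι (modularFunctionFieldFull N) ⟨a₁, ha₁⟩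
      = (⟨coeffMap A.subtype a, ha⟩ : modularFunctionFieldBar N) := Subtype.ext haa
  rw [e1, e2] at h
  exact h

/-- **KL-ASM, steps B + C**: the key lemma for prime exponents from the abstract key lemma and
the four model statements (transcendence, good basis, branch data, `q`-expansion principle). -/
theorem keyLemmaPrime_of_model (N ℓ : ℕ) [NeZero N] (hℓ : ℓ.Prime) (x₀ : LaurentSeries ℚ)
    (hx₀ : x₀ ∈ modularFunctionFieldFull N) (M : ℕ) (hM : 0 < M)
    (hAbs : AbstractKeyLemmaStatement) (hTr : ModelTranscendentalStatement N x₀)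
    (hGB : ModelGoodBasisStatement N ℓ x₀) (hBR : ModelBranchStatement N ℓ x₀ M)
    (hQ : ModelQExpStatement N ℓ x₀) :
    Fermat.Agent.H88.KLInd.KeyLemmaPrimeStatement N ℓ := by
  intro A hA r hr hℓr a b ha hb hred hne hord
  obtain ⟨K₀, hK₀fin, hD⟩ :=
    klDescent N (coeffMap A.subtype a) (coeffMap A.subtype b) ha hb r hord
  haveI : NeZero ((M : ℕ) : ℚ) := ⟨Nat.cast_ne_zero.mpr hM.ne'⟩
  haveI : NeZero ((r : ℕ) : ℚ) := ⟨Nat.cast_ne_zero.mpr hr.ne_zero⟩
  obtain ⟨ζM, hζM⟩ := HasEnoughRootsOfUnity.exists_primitiveRoot QBar M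
  obtain ⟨ζr, hζr⟩ := HasEnoughRootsOfUnity.exists_primitiveRoot QBar r
  have hb0 : coeffMap A.subtype b ≠ 0 := by
    intro h0
    have hb' : b = 0 := (coeffMap_eq_zero_iff A.subtype Subtype.val_injective b).mp h0
    apply hne
    rw [hred, hb', map_zero]
  have hlb : (coeffMap A.subtype b).leadingCoeff ≠ 0 := HahnSeries.leadingCoeff_ne_zero.mpr hb0
  obtain ⟨γ₀, hγ₀⟩ : ∃ γ₀ : QBar, γ₀ ^ r * (coeffMap A.subtype b).leadingCoeff
      = (coeffMap A.subtype a).leadingCoeff := by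
    obtain ⟨z, hz⟩ := IsAlgClosed.exists_pow_nat_eq
      ((coeffMap A.subtype a).leadingCoeff / (coeffMap A.subtype b).leadingCoeff) hr.pos
    exact ⟨z, by rw [hz, div_mul_cancel₀ _ hlb]⟩
  let K : IntermediateField ℚ QBar :=
    K₀ ⊔ IntermediateField.adjoin ℚ ({ζM, ζr, γ₀} : Set QBar)
  haveI : FiniteDimensional ℚ ↥K₀ := hK₀fin
  have halg : Algebra.IsAlgebraic ℚ QBar := AlgebraicClosure.isAlgebraic ℚ
  haveI : FiniteDimensional ℚ ↥(IntermediateField.adjoin ℚ ({ζM, ζr, γ₀} : Set QBar)) :=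
    IntermediateField.finiteDimensional_adjoin
      (fun x _ => (Algebra.IsAlgebraic.isAlgebraic (R := ℚ) x).isIntegral)
  haveI : FiniteDimensional ℚ ↥K := IntermediateField.finiteDimensional_sup _ _
  have hrange : ∀ c ∈ K, c ∈ (algebraMap ↥K QBar).range := fun c hc => ⟨⟨c, hc⟩, rfl⟩
  have hadj : ∀ c ∈ ({ζM, ζr, γ₀} : Set QBar), c ∈ K := fun c hc =>
    (le_sup_right : IntermediateField.adjoin ℚ ({ζM, ζr, γ₀} : Set QBar) ≤ K)
      (IntermediateField.subset_adjoin ℚ _ hc)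
  exact klAsm_stepBC N ℓ hℓ x₀ hx₀ M hAbs hTr hGB hBR hQ A hA r hr hℓr a b ha hb hred hne
    ↥K (algebraMap ↥K QBar)
    (hD ↥K (algebraMap ↥K QBar) (fun c hc => hrange c ((le_sup_left : K₀ ≤ K) hc)))
    ζM ζr γ₀ hζM hζr hγ₀
    (hrange _ (hadj _ (by simp))) (hrange _ (hadj _ (by simp))) (hrange _ (hadj _ (by simp)))

end Fermat.Agent.H93.KL
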