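/-
helper93 (P-DS / ES1-KL, DESC1): the number-field descent package for the KEY LEMMA, generic in
the level field `F₀ : IntermediateField ℚ (LaurentSeries ℚ)` (twin of `KLDescentStatement N`,
which is the case `F₀ = modularFunctionFieldFull N`).
-/
import Fermat.Agent.H93.KL.DescFinal

set_option autoImplicit false

noncomputable section

namespace Fermat.Agent.H93.KL

open ModularCurve AlgebraicCurve

/-- **KL-DESC, generic form.**  Given `a b ∈ F_{ℚ̄} = laurentBaseChange ℚ̄ F₀` such that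
`r ∣ ord_P a - ord_P b` at every place `P` of `F_{ℚ̄}`: there is a number field `K₀ ⊂ ℚ̄` such
that for every field `ι : K₁ → ℚ̄` whose image contains `K₀` the series `a`, `b` come from
`a₁ b₁ ∈ F_{K₁} = laurentBaseChange K₁ F₀` and `r ∣ ord_{P₁} a₁ - ord_{P₁} b₁` at every place
`P₁` of `F_{K₁} / K₁`. -/
def KLDescentGenStatement (F₀ : IntermediateField ℚ (LaurentSeries ℚ)) : Prop :=
  ∀ (a b : LaurentSeries QBar)
    (ha : a ∈ laurentBaseChange QBar F₀) (hb : b ∈ laurentBaseChange QBar F₀) (r : ℕ),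
    (∀ P : Place QBar ↥(laurentBaseChange QBar F₀),
      (r : ℤ) ∣ P.ord (⟨a, ha⟩ : ↥(laurentBaseChange QBar F₀))
        - P.ord (⟨b, hb⟩ : ↥(laurentBaseChange QBar F₀))) →
    ∃ K₀ : IntermediateField ℚ QBar, FiniteDimensional ℚ ↥K₀ ∧
      ∀ (K₁ : Type) [Field K₁] [Algebra ℚ K₁] (ι : K₁ →+* QBar),
        (∀ c ∈ K₀, c ∈ ι.range) →
        ∃ (a₁ b₁ : LaurentSeries K₁)
          (ha₁ : a₁ ∈ laurentBaseChange K₁ F₀)
          (hb₁ : b₁ ∈ laurentBaseChange K₁ F₀),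
          coeffMap ι a₁ = a ∧ coeffMap ι b₁ = b ∧
          ∀ P₁ : Place K₁ ↥(laurentBaseChange K₁ F₀),
            (r : ℤ) ∣ P₁.ord (⟨a₁, ha₁⟩ : ↥(laurentBaseChange K₁ F₀))
              - P₁.ord (⟨b₁, hb₁⟩ : ↥(laurentBaseChange K₁ F₀))

/-- The generic descent package, unconditionally. -/
theorem klDescentGen (F₀ : IntermediateField ℚ (LaurentSeries ℚ)) :
    KLDescentGenStatement F₀ := by
  intro a b ha hb r hr
  obtain ⟨Ka, hKa, hA⟩ := coeffDescentFinal F₀ a ha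
  obtain ⟨Kb, hKb, hB⟩ := coeffDescentFinal F₀ b hb
  refine ⟨Ka ⊔ Kb, ?_, fun K₁ _ _ ι hK₁ => ?_⟩
  · have := hKa
    have := hKb
    exact IntermediateField.finiteDimensional_sup Ka Kb
  · obtain ⟨a₁, ha₁, rfl⟩ := hA K₁ ι (fun c hc => hK₁ c ((le_sup_left : Ka ≤ Ka ⊔ Kb) hc))
    obtain ⟨b₁, hb₁, rfl⟩ := hB K₁ ι (fun c hc => hK₁ c ((le_sup_right : Kb ≤ Ka ⊔ Kb) hc))
    refine ⟨a₁, b₁, ha₁, hb₁, rfl, rfl, fun P₁ => ?_⟩
    obtain ⟨P, hP⟩ := placeDescent F₀ K₁ ι P₁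
    have h := hr P
    have e1 : (⟨coeffMap ι a₁, ha⟩ : ↥(laurentBaseChange QBar F₀)) = klBc ι F₀ ⟨a₁, ha₁⟩ := rfl
    have e2 : (⟨coeffMap ι b₁, hb⟩ : ↥(laurentBaseChange QBar F₀)) = klBc ι F₀ ⟨b₁, hb₁⟩ := rfl
    rw [e1, e2, hP, hP] at h
    exact h

/-- The `Γ₀(N)` package is the instance `F₀ = modularFunctionFieldFull N`. -/
theorem klDescentGen_modular (N : ℕ) :
    KLDescentGenStatement (modularFunctionFieldFull N) ↔ KLDescentStatement N := Iff.rfl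

end Fermat.Agent.H93.KL
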