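/-
helper93 (P-DS / ES1-KL, row 581; twin of row 551): steps B + C of KL-ASM, GENERIC in the level
field `F₀ : IntermediateField ℚ (LaurentSeries ℚ)`.

* `KLAsmCoreGenStatement F₀ ℓ M` : the "core" (abstract key lemma applied to the model
  `laurentBaseChange K₁ F₀` over an abstract DVR `A₀` with fraction field a number field `K₁`);
  for `F₀ = modularFunctionFieldFull N` this is helper22's `H22.KL.klAsm_core`
  (`klAsmCoreGen_modular`).
* `KeyLemmaPrimeGenStatement F₀ ℓ` : the key lemma for prime exponents (twin of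
  `H88.KLInd.KeyLemmaPrimeStatement N ℓ`).
* `keyLemmaPrimeGen_of_core : KLAsmCoreGenStatement F₀ ℓ M → KeyLemmaPrimeGenStatement F₀ ℓ`.
-/
import Fermat.Agent.H93.KL.AsmFinal
import Fermat.Agent.H93.KL.DescGen

set_option autoImplicit false

noncomputable section

namespace Fermat.Agent.H93.KL

open ModularCurve AlgebraicCurve Fermat.Agent.H22.KL

/-- The KEY LEMMA restricted to prime exponents, for the level field `F₀` (twin of
`Fermat.Agent.H88.KLInd.KeyLemmaPrimeStatement`). -/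
def KeyLemmaPrimeGenStatement (F₀ : IntermediateField ℚ (LaurentSeries ℚ)) (ℓ : ℕ) : Prop :=
  ∀ (A : ValuationSubring (AlgebraicClosure ℚ)), A.LiesOverPrime ℓ →
    ∀ (r : ℕ), r.Prime → ¬ ℓ ∣ r →
      ∀ (a b : LaurentSeries A)
        (ha : coeffMap A.subtype a ∈ laurentBaseChange (AlgebraicClosure ℚ) F₀)
        (hb : coeffMap A.subtype b ∈ laurentBaseChange (AlgebraicClosure ℚ) F₀),
        coeffMap (IsLocalRing.residue A) a = coeffMap (IsLocalRing.residue A) b →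
        coeffMap (IsLocalRing.residue A) a ≠ 0 →
        (∀ P : Place (AlgebraicClosure ℚ) (laurentBaseChange (AlgebraicClosure ℚ) F₀),
          (r : ℤ) ∣ P.ord (⟨coeffMap A.subtype a, ha⟩ : laurentBaseChange (AlgebraicClosure ℚ) F₀)
            - P.ord (⟨coeffMap A.subtype b, hb⟩ : laurentBaseChange (AlgebraicClosure ℚ) F₀)) →
        ∃ w : laurentBaseChange (AlgebraicClosure ℚ) F₀,
          w ^ r * (⟨coeffMap A.subtype b, hb⟩ : laurentBaseChange (AlgebraicClosure ℚ) F₀)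
            = (⟨coeffMap A.subtype a, ha⟩ : laurentBaseChange (AlgebraicClosure ℚ) F₀)

theorem keyLemmaPrimeGen_modular (N ℓ : ℕ) :
    KeyLemmaPrimeGenStatement (modularFunctionFieldFull N) ℓ
      ↔ Fermat.Agent.H88.KLInd.KeyLemmaPrimeStatement N ℓ := Iff.rfl

/-- **The core of KL-ASM, generic form**: the conclusion of `H22.KL.klAsm_core` for the model
field `laurentBaseChange K₁ F₀` over an abstract discrete valuation ring `A₀` whose fraction
field is a number field `K₁` containing a primitive `M`-th root of unity. -/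
def KLAsmCoreGenStatement (F₀ : IntermediateField ℚ (LaurentSeries ℚ)) (ℓ M : ℕ) : Prop :=
  ∀ (K₁ : Type) [Field K₁] [Algebra ℚ K₁] [FiniteDimensional ℚ K₁]
    (A₀ : Type) [CommRing A₀] [IsDomain A₀] [IsDiscreteValuationRing A₀]
    [Algebra A₀ K₁] [IsFractionRing A₀ K₁]
    [Algebra A₀ ↥(laurentBaseChange K₁ F₀)] [IsScalarTower A₀ K₁ ↥(laurentBaseChange K₁ F₀)],
    ¬ IsUnit ((ℓ : ℕ) : A₀) →
    (∃ ζ : K₁, IsPrimitiveRoot ζ M) →
    ∀ (r : ℕ), r.Prime → IsUnit ((r : ℕ) : A₀) → (∃ ζ : K₁, IsPrimitiveRoot ζ r) →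
    ∀ (a b : ↥(laurentBaseChange K₁ F₀)),
      (∀ n : ℤ, (a : LaurentSeries K₁).coeff n ∈ (algebraMap A₀ K₁).range) →
      (∀ n : ℤ, (b : LaurentSeries K₁).coeff n ∈ (algebraMap A₀ K₁).range) →
      (∃ (n : ℤ) (c : A₀), IsUnit c ∧ algebraMap A₀ K₁ c = (b : LaurentSeries K₁).coeff n) →
      (∀ n : ℤ, ∃ c : A₀, ¬ IsUnit c ∧
        algebraMap A₀ K₁ c = ((a : LaurentSeries K₁) - (b : LaurentSeries K₁)).coeff n) →
      (∀ P : Place K₁ ↥(laurentBaseChange K₁ F₀), (r : ℤ) ∣ P.ord a - P.ord b) →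
      (∃ γ : K₁, γ ^ r * (b : LaurentSeries K₁).leadingCoeff
        = (a : LaurentSeries K₁).leadingCoeff) →
      ∃ w : ↥(laurentBaseChange K₁ F₀), w ^ r * b = a

/-- For `F₀ = modularFunctionFieldFull N` the core is helper22's `klAsm_core`. -/
theorem klAsmCoreGen_modular (N ℓ : ℕ) [NeZero N] (x₀ : LaurentSeries ℚ)
    (hx₀ : x₀ ∈ modularFunctionFieldFull N) (M : ℕ)
    (hAbs : AbstractKeyLemmaStatement) (hTr : ModelTranscendentalStatement N x₀)
    (hGB : ModelGoodBasisStatement N ℓ x₀) (hBR : ModelBranchStatement N ℓ x₀ M)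
    (hQ : ModelQExpStatement N ℓ x₀) :
    KLAsmCoreGenStatement (modularFunctionFieldFull N) ℓ M := by
  intro K₁ _ _ _ A₀ _ _ _ _ _ _ _ hℓ hζM r hr hrA hζr a b ha hb hbu hab hord hγ
  exact klAsm_core N ℓ x₀ M hx₀ hAbs hTr hGB hBR hQ (Fermat.Agent.H60.modelCuspPlace N)
    Fermat.Agent.H33.KLM.modelRoot modelConst K₁ A₀ hℓ hζM r hr hrA hζr a b ha hb hbu hab
    hord hγ

section StepBGen

variable (F₀ : IntermediateField ℚ (LaurentSeries ℚ)) (ℓ M : ℕ)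

/-- **Step B, generic form.** -/
theorem klAsm_stepB_gen (hℓ : ℓ.Prime) (hcore : KLAsmCoreGenStatement F₀ ℓ M)
    (K₁ : Type) [Field K₁] [Algebra ℚ K₁] [FiniteDimensional ℚ K₁] (ι : K₁ →+* QBar)
    (A : ValuationSubring QBar) (hA : A.LiesOverPrime ℓ)
    (hζM : ∃ ζ : K₁, IsPrimitiveRoot ζ M)
    (r : ℕ) (hr : r.Prime) (hℓr : ¬ ℓ ∣ r) (hζr : ∃ ζ : K₁, IsPrimitiveRoot ζ r)
    (a b : LaurentSeries A)
    (hred : coeffMap (IsLocalRing.residue A) a = coeffMap (IsLocalRing.residue A) b)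
    (hne : coeffMap (IsLocalRing.residue A) a ≠ 0)
    (a₁ b₁ : LaurentSeries K₁)
    (ha₁ : a₁ ∈ laurentBaseChange K₁ F₀)
    (hb₁ : b₁ ∈ laurentBaseChange K₁ F₀)
    (haa : coeffMap ι a₁ = coeffMap A.subtype a) (hbb : coeffMap ι b₁ = coeffMap A.subtype b)
    (hord : ∀ P₁ : Place K₁ ↥(laurentBaseChange K₁ F₀),
      (r : ℤ) ∣ P₁.ord (⟨a₁, ha₁⟩ : ↥(laurentBaseChange K₁ F₀))
        - P₁.ord (⟨b₁, hb₁⟩ : ↥(laurentBaseChange K₁ F₀)))
    (hγ : ∃ γ : K₁, γ ^ r * b₁.leadingCoeff = a₁.leadingCoeff) :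
    ∃ w : ↥(laurentBaseChange K₁ F₀),
      w ^ r * (⟨b₁, hb₁⟩ : ↥(laurentBaseChange K₁ F₀))
        = (⟨a₁, ha₁⟩ : ↥(laurentBaseChange K₁ F₀)) := by
  classical
  haveI hdvr : IsDiscreteValuationRing ↥(A.comap ι) :=
    Fermat.Agent.H34.modelDVR K₁ ι A ℓ hℓ hA
  letI algE : Algebra ↥(A.comap ι) (↥(laurentBaseChange K₁ F₀)) :=
    ((algebraMap K₁ (↥(laurentBaseChange K₁ F₀))).comp (algebraMap ↥(A.comap ι) K₁)).toAlgebra
  haveI : IsScalarTower ↥(A.comap ι) K₁ (↥(laurentBaseChange K₁ F₀)) :=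
    IsScalarTower.of_algebraMap_eq (fun _ => rfl)
  -- coefficients
  have hcoefa : ∀ n : ℤ, ι (a₁.coeff n) = ((a.coeff n : A) : QBar) := by
    intro n
    have := congrArg (fun z => HahnSeries.coeff z n) haa
    simpa using this
  have hcoefb : ∀ n : ℤ, ι (b₁.coeff n) = ((b.coeff n : A) : QBar) := by
    intro n
    have := congrArg (fun z => HahnSeries.coeff z n) hbb
    simpa using this
  have hmema : ∀ n : ℤ, a₁.coeff n ∈ A.comap ι := by
    intro n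
    rw [ValuationSubring.mem_comap, hcoefa]
    exact (a.coeff n).2
  have hmemb : ∀ n : ℤ, b₁.coeff n ∈ A.comap ι := by
    intro n
    rw [ValuationSubring.mem_comap, hcoefb]
    exact (b.coeff n).2
  -- `ℓ` is not a unit
  have hℓ' : ¬ IsUnit ((ℓ : ℕ) : ↥(A.comap ι)) := by
    have h1 : ((ℓ : ℕ) : ↥(A.comap ι)) = ⟨(ℓ : K₁), by
        rw [ValuationSubring.mem_comap, map_natCast]; exact natCast_mem A ℓ⟩ :=
      Subtype.ext (by simp)
    rw [h1, isUnit_comap_iff, valuationSubring_isUnit_iff]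
    rintro ⟨h0, hinv⟩
    have h2 : ((ℓ : ℕ) : QBar) ∈ A.nonunits := hA
    rw [ValuationSubring.mem_nonunits_iff_exists_mem_maximalIdeal] at h2
    obtain ⟨hmem, hmax⟩ := h2
    rw [IsLocalRing.mem_maximalIdeal, mem_nonunits_iff] at hmax
    apply hmax
    rw [valuationSubring_isUnit_iff]
    refine ⟨?_, ?_⟩
    · simpa using h0
    · simpa using hinv
  -- `r` is a unit
  have hrA : IsUnit ((r : ℕ) : ↥(A.comap ι)) := by
    by_contra hru
    have hcop : Nat.Coprime ℓ r := by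
      rw [Nat.coprime_primes hℓ hr]
      rintro rfl
      exact hℓr dvd_rfl
    have hcopZ : IsCoprime (ℓ : ℤ) (r : ℤ) := Nat.isCoprime_iff_coprime.mpr hcop
    obtain ⟨u, v, huv⟩ := hcopZ
    have h1 : ((ℓ : ℕ) : ↥(A.comap ι)) ∈ IsLocalRing.maximalIdeal ↥(A.comap ι) := by
      rw [IsLocalRing.mem_maximalIdeal, mem_nonunits_iff]; exact hℓ'
    have h2 : ((r : ℕ) : ↥(A.comap ι)) ∈ IsLocalRing.maximalIdeal ↥(A.comap ι) := by
      rw [IsLocalRing.mem_maximalIdeal, mem_nonunits_iff]; exact hru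
    have h3 : (1 : ↥(A.comap ι)) ∈ IsLocalRing.maximalIdeal ↥(A.comap ι) := by
      have h4 : ((u : ↥(A.comap ι)) * ((ℓ : ℕ) : ↥(A.comap ι))
          + (v : ↥(A.comap ι)) * ((r : ℕ) : ↥(A.comap ι))) = 1 := by
        have := congrArg (fun z : ℤ => (z : ↥(A.comap ι))) huv
        simpa using this
      rw [← h4]
      exact Ideal.add_mem _ (Ideal.mul_mem_left _ _ h1) (Ideal.mul_mem_left _ _ h2)
    exact (Ideal.ne_top_iff_one _).mp (IsLocalRing.maximalIdeal.isMaximal _).ne_top h3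
  -- the coefficient conditions
  have ha : ∀ n : ℤ, ((⟨a₁, ha₁⟩ : ↥(laurentBaseChange K₁ F₀)) : LaurentSeries K₁).coeff n
      ∈ (algebraMap ↥(A.comap ι) K₁).range := fun n => ⟨⟨a₁.coeff n, hmema n⟩, rfl⟩
  have hb : ∀ n : ℤ, ((⟨b₁, hb₁⟩ : ↥(laurentBaseChange K₁ F₀)) : LaurentSeries K₁).coeff n
      ∈ (algebraMap ↥(A.comap ι) K₁).range := fun n => ⟨⟨b₁.coeff n, hmemb n⟩, rfl⟩
  have hresab : ∀ n : ℤ, IsLocalRing.residue A (a.coeff n) = IsLocalRing.residue A (b.coeff n) := by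
    intro n
    have := congrArg (fun z => HahnSeries.coeff z n) hred
    simpa using this
  have hbu : ∃ (n : ℤ) (c : ↥(A.comap ι)), IsUnit c ∧
      algebraMap ↥(A.comap ι) K₁ c = ((⟨b₁, hb₁⟩ : ↥(laurentBaseChange K₁ F₀)) : LaurentSeries K₁).coeff n := by
    have hneb : coeffMap (IsLocalRing.residue A) b ≠ 0 := hred ▸ hne
    obtain ⟨n, hn⟩ : ∃ n : ℤ, (coeffMap (IsLocalRing.residue A) b).coeff n ≠ 0 := by
      by_contra hcon
      push Not at hcon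
      exact hneb (HahnSeries.ext (funext fun n => by simpa using hcon n))
    rw [coeffMap_coeff] at hn
    have hunit : IsUnit (b.coeff n) := by
      by_contra hnu
      exact hn ((IsLocalRing.residue_eq_zero_iff _).mpr
        ((IsLocalRing.mem_maximalIdeal _).mpr hnu))
    refine ⟨n, ⟨b₁.coeff n, hmemb n⟩, ?_, rfl⟩
    rw [isUnit_comap_iff]
    have : (⟨ι (b₁.coeff n), hmemb n⟩ : ↥A) = b.coeff n := Subtype.ext (hcoefb n)
    rw [this]
    exact hunit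
  have hab : ∀ n : ℤ, ∃ c : ↥(A.comap ι), ¬ IsUnit c ∧
      algebraMap ↥(A.comap ι) K₁ c = (((⟨a₁, ha₁⟩ : ↥(laurentBaseChange K₁ F₀)) : LaurentSeries K₁)
        - ((⟨b₁, hb₁⟩ : ↥(laurentBaseChange K₁ F₀)) : LaurentSeries K₁)).coeff n := by
    intro n
    have hmem : a₁.coeff n - b₁.coeff n ∈ A.comap ι := sub_mem (hmema n) (hmemb n)
    refine ⟨⟨a₁.coeff n - b₁.coeff n, hmem⟩, ?_, ?_⟩
    · rw [isUnit_comap_iff]
      have : (⟨ι (a₁.coeff n - b₁.coeff n), hmem⟩ : ↥A) = a.coeff n - b.coeff n :=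
        Subtype.ext (by
          show ι (a₁.coeff n - b₁.coeff n) = ((a.coeff n : A) : QBar) - ((b.coeff n : A) : QBar)
          rw [map_sub, hcoefa, hcoefb])
      rw [this]
      intro hu
      have h0 : IsLocalRing.residue A (a.coeff n - b.coeff n) = 0 := by
        rw [map_sub, hresab n, sub_self]
      rw [IsLocalRing.residue_eq_zero_iff, IsLocalRing.mem_maximalIdeal, mem_nonunits_iff] at h0
      exact h0 hu
    · show a₁.coeff n - b₁.coeff n = (a₁ - b₁).coeff n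
      rw [HahnSeries.coeff_sub]
  exact hcore K₁ ↥(A.comap ι) hℓ' hζM r hr hrA hζr
    ⟨a₁, ha₁⟩ ⟨b₁, hb₁⟩ ha hb hbu hab hord hγ


/-- **Steps B + C over an abstract number field, generic form.** -/
theorem klAsm_stepBC_gen (hℓ : ℓ.Prime) (hcore : KLAsmCoreGenStatement F₀ ℓ M)
    (A : ValuationSubring QBar) (hA : A.LiesOverPrime ℓ)
    (r : ℕ) (hr : r.Prime) (hℓr : ¬ ℓ ∣ r)
    (a b : LaurentSeries A)
    (ha : coeffMap A.subtype a ∈ laurentBaseChange QBar F₀)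
    (hb : coeffMap A.subtype b ∈ laurentBaseChange QBar F₀)
    (hred : coeffMap (IsLocalRing.residue A) a = coeffMap (IsLocalRing.residue A) b)
    (hne : coeffMap (IsLocalRing.residue A) a ≠ 0)
    (K₁ : Type) [Field K₁] [Algebra ℚ K₁] [FiniteDimensional ℚ K₁] (ι : K₁ →+* QBar)
    (hD : ∃ (a₁ b₁ : LaurentSeries K₁)
      (ha₁ : a₁ ∈ laurentBaseChange K₁ F₀)
      (hb₁ : b₁ ∈ laurentBaseChange K₁ F₀),
      coeffMap ι a₁ = coeffMap A.subtype a ∧ coeffMap ι b₁ = coeffMap A.subtype b ∧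
      ∀ P₁ : Place K₁ ↥(laurentBaseChange K₁ F₀),
        (r : ℤ) ∣ P₁.ord (⟨a₁, ha₁⟩ : ↥(laurentBaseChange K₁ F₀))
          - P₁.ord (⟨b₁, hb₁⟩ : ↥(laurentBaseChange K₁ F₀)))
    (ζM ζr γ₀ : QBar) (hζM : IsPrimitiveRoot ζM M) (hζr : IsPrimitiveRoot ζr r)
    (hγ₀ : γ₀ ^ r * (coeffMap A.subtype b).leadingCoeff = (coeffMap A.subtype a).leadingCoeff)
    (hζM' : ζM ∈ ι.range) (hζr' : ζr ∈ ι.range) (hγ₀' : γ₀ ∈ ι.range) :
    ∃ w : ↥(laurentBaseChange QBar F₀),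
      w ^ r * (⟨coeffMap A.subtype b, hb⟩ : ↥(laurentBaseChange QBar F₀))
        = (⟨coeffMap A.subtype a, ha⟩ : ↥(laurentBaseChange QBar F₀)) := by
  obtain ⟨a₁, b₁, ha₁, hb₁, haa, hbb, hord⟩ := hD
  obtain ⟨zM, rfl⟩ := hζM'
  obtain ⟨zr, rfl⟩ := hζr'
  obtain ⟨g, rfl⟩ := hγ₀'
  have hzM : IsPrimitiveRoot zM M := IsPrimitiveRoot.of_map_of_injective hζM ι.injective
  have hzr : IsPrimitiveRoot zr r := IsPrimitiveRoot.of_map_of_injective hζr ι.injective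
  have hγ : ∃ γ : K₁, γ ^ r * b₁.leadingCoeff = a₁.leadingCoeff := by
    refine ⟨g, ι.injective ?_⟩
    rw [map_mul, map_pow, ← leadingCoeff_coeffMap ι ι.injective,
      ← leadingCoeff_coeffMap ι ι.injective, haa, hbb]
    exact hγ₀
  obtain ⟨w₀, hw₀⟩ := klAsm_stepB_gen F₀ ℓ M hℓ hcore K₁ ι A hA ⟨zM, hzM⟩
    r hr hℓr ⟨zr, hzr⟩ a b hred hne a₁ b₁ ha₁ hb₁ haa hbb hord hγ
  refine ⟨klBc ι F₀ w₀, ?_⟩
  have h := congrArg (klBc ι F₀) hw₀
  rw [map_mul, map_pow] at h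
  have e1 : klBc ι F₀ ⟨b₁, hb₁⟩
      = (⟨coeffMap A.subtype b, hb⟩ : ↥(laurentBaseChange QBar F₀)) := Subtype.ext hbb
  have e2 : klBc ι F₀ ⟨a₁, ha₁⟩
      = (⟨coeffMap A.subtype a, ha⟩ : ↥(laurentBaseChange QBar F₀)) := Subtype.ext haa
  rw [e1, e2] at h
  exact h

/-- **KL-ASM, steps B + C, generic form**: the key lemma for prime exponents for the level
field `F₀` from the core statement. -/
theorem keyLemmaPrimeGen_of_core (hℓ : ℓ.Prime) (hM : 0 < M)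
    (hcore : KLAsmCoreGenStatement F₀ ℓ M) : KeyLemmaPrimeGenStatement F₀ ℓ := by
  intro A hA r hr hℓr a b ha hb hred hne hord
  obtain ⟨K₀, hK₀fin, hD⟩ :=
    klDescentGen F₀ (coeffMap A.subtype a) (coeffMap A.subtype b) ha hb r hord
  haveI : NeZero ((M : ℕ) : ℚ) := ⟨Nat.cast_ne_zero.mpr hM.ne'⟩
  haveI : NeZero ((r : ℕ) : ℚ) := ⟨Nat.cast_ne_zero.mpr hr.ne_zero⟩
  obtain ⟨ζM, hζM⟩ := HasEnoughRootsOfUnity.exists_primitiveRoot QBar M
  obtain ⟨ζr, hζr⟩ := HasEnoughRootsOfUnity.exists_primitiveRoot QBar r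
  have hb0 : coeffMap A.subtype b ≠ 0 := by
    intro h0
    have hb' : b = 0 := (coeffMap_eq_zero_iff A.subtype Subtype.val_injective b).mp h0
    apply hne
    rw [hred, hb', map_zero]
  have hlb : (coeffMap A.subtype b).leadingCoeff ≠ 0 := HahnSeries.leadingCoeff_ne_zero.mpr hb0
  obtain ⟨γ₀, hγ₀⟩ : ∃ γ₀ : QBar, γ₀ ^ r * (coeffMap A.subtype b).leadingCoeff
      = (coeffMap A.subtype a).leadingCoeff := by
    obtain ⟨z, hz⟩ := IsAlgClosed.exists_pow_nat_eq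
      ((coeffMap A.subtype a).leadingCoeff / (coeffMap A.subtype b).leadingCoeff) hr.pos
    exact ⟨z, by rw [hz, div_mul_cancel₀ _ hlb]⟩
  let K : IntermediateField ℚ QBar :=
    K₀ ⊔ IntermediateField.adjoin ℚ ({ζM, ζr, γ₀} : Set QBar)
  haveI : FiniteDimensional ℚ ↥K₀ := hK₀fin
  have halg : Algebra.IsAlgebraic ℚ QBar := AlgebraicClosure.isAlgebraic ℚ
  haveI : FiniteDimensional ℚ ↥(IntermediateField.adjoin ℚ ({ζM, ζr, γ₀} : Set QBar)) :=
    IntermediateField.finiteDimensional_adjoin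
      (fun x _ => (Algebra.IsAlgebraic.isAlgebraic (R := ℚ) x).isIntegral)
  haveI : FiniteDimensional ℚ ↥K := IntermediateField.finiteDimensional_sup _ _
  have hrange : ∀ c ∈ K, c ∈ (algebraMap ↥K QBar).range := fun c hc => ⟨⟨c, hc⟩, rfl⟩
  have hadj : ∀ c ∈ ({ζM, ζr, γ₀} : Set QBar), c ∈ K := fun c hc =>
    (le_sup_right : IntermediateField.adjoin ℚ ({ζM, ζr, γ₀} : Set QBar) ≤ K)
      (IntermediateField.subset_adjoin ℚ _ hc)
  exact klAsm_stepBC_gen F₀ ℓ M hℓ hcore A hA r hr hℓr a b ha hb hred hne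
    ↥K (algebraMap ↥K QBar)
    (hD ↥K (algebraMap ↥K QBar) (fun c hc => hrange c ((le_sup_left : K₀ ≤ K) hc)))
    ζM ζr γ₀ hζM hζr hγ₀
    (hrange _ (hadj _ (by simp))) (hrange _ (hadj _ (by simp))) (hrange _ (hadj _ (by simp)))


end StepBGen

end Fermat.Agent.H93.KL
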